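/-
S56 / T24o (row 355, sub-architect helper26): the COCYCLE DICTIONARY for the strict-ordinary
condition.  DEFINITIONS (sorry-free).

`k` a field of characteristic `p`, `ρ̄ : ResidualGaloisRep k`; local Galois groups are
`lbGal q = Gal(ℚ̄_q/ℚ_q)` (defeq to the Prelude's `primeLocalGaloisGroup`), local inertia is
`locInertia q` (`Loc/Defs.lean`, helper22), `localGaloisToGlobal q : lbGal q →* GQ`.

* `dctLocEnd ρ̄ q σ`     : `ρ̄(σ)` for a local `σ`.
* `DctUnipShape ρ̄ q`    : `ρ̄` is unipotent and NON-trivial on the local inertia group at `q`.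
* `dctZUnip p ρ̄ q`      : functions `f : Γ_q → ad⁰` with `tr (f σ · (ρ̄ σ - 1)) = 0` on inertia.
* `dctZq p ρ̄ q`         : `dctZUnip` if `DctUnipShape`, else `⊥`  (the condition at `q ∈ Smin`, `q ≠ p`).
* `DctOrdShape p ρ̄ q L` : the line `L ⊆ ρ̄.V` is stable under `Γ_q`, which acts on `L` by `ω d` and on
                          `V/L` by `d`, `ω` the mod `p` cyclotomic character, `d` UNRAMIFIED.
* `dctOrdFun p ρ̄ q L`   : functions with values in `Hom(V/L, L)` (range `≤ L ≤` kernel).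
* `dctLocAd p ρ̄ q`      : the local coefficient system `ad⁰ρ̄ ∘ localGaloisToGlobal q`.
* `dctZord p ρ̄ q`       : `dctOrdFun L + coboundaries` for the (unique) line `L` of ordinary shape,
                          else `⊥`.
* `dctZ p ρ̄ Smin`       : THE FAMILY of local conditions of T24o.
The normal form of lifts to `k[ε]` is helper12's `S56IsTanLift` (`Tan/Lift.lean`).
-/
import Fermat.Agent.S56.Top.Defs
import Fermat.Agent.S56.Loc.Defs
import Fermat.Agent.S55.LG.QbarInertia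

set_option autoImplicit false
set_option linter.unusedVariables false
set_option linter.unusedSectionVars false

noncomputable section

namespace Fermat.Agent.S56

open Fermat.Agent.S55 ExtCitation IsLocalRing Polynomial

section Local

variable {k : Type} [Field k] (p : ℕ) [Fact p.Prime] [CharP k p] (ρbar : ResidualGaloisRep k)
  (q : ℕ) [Fact q.Prime]

/-- `ρ̄(σ)` for a local Galois element `σ` -/
def dctLocEnd (σ : lbGal q) : Module.End k ρbar.V := ρbar.ρ (localGaloisToGlobal q σ)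

theorem dctLocEnd_mul (σ τ : lbGal q) :
    dctLocEnd ρbar q (σ * τ) = dctLocEnd ρbar q σ * dctLocEnd ρbar q τ := by
  unfold dctLocEnd
  rw [map_mul, map_mul]

theorem dctLocEnd_one : dctLocEnd ρbar q 1 = 1 := by
  unfold dctLocEnd
  rw [map_one, map_one]

/-- `ρ̄` is unipotent and non-trivial on the local inertia group at `q` -/
def DctUnipShape : Prop :=
  (∀ σ ∈ locInertia q, (dctLocEnd ρbar q σ - 1) * (dctLocEnd ρbar q σ - 1) = 0) ∧
    ∃ σ ∈ locInertia q, dctLocEnd ρbar q σ ≠ 1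

/-- the minimal (unipotent) condition at `q ≠ p`: `tr (f σ · (ρ̄ σ - 1)) = 0` on inertia -/
def dctZUnip : Submodule (ZMod p) (lbGal q → S56Ad0 ρbar) where
  carrier := {f | ∀ σ ∈ locInertia q,
    LinearMap.trace k ρbar.V ((f σ).val * (dctLocEnd ρbar q σ - 1)) = 0}
  add_mem' := by
    intro f g hf hg σ hσ
    have h1 : ((f + g) σ).val = (f σ).val + (g σ).val := rfl
    rw [h1, add_mul, map_add, hf σ hσ, hg σ hσ, add_zero]
  zero_mem' := by
    intro σ _
    have h1 : ((0 : lbGal q → S56Ad0 ρbar) σ).val = 0 := rfl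
    rw [h1, zero_mul, map_zero]
  smul_mem' := by
    intro a f hf σ hσ
    have h1 : ((a • f) σ).val = (ZMod.castHom (dvd_refl p) k a) • (f σ).val := rfl
    rw [h1, smul_mul_assoc, map_smul, hf σ hσ, smul_zero]

theorem mem_dctZUnip (f : lbGal q → S56Ad0 ρbar) :
    f ∈ dctZUnip p ρbar q ↔ ∀ σ ∈ locInertia q,
      LinearMap.trace k ρbar.V ((f σ).val * (dctLocEnd ρbar q σ - 1)) = 0 := Iff.rfl

open Classical in
/-- the local condition at `q ∈ Smin`, `q ≠ p` -/
def dctZq : Submodule (ZMod p) (lbGal q → S56Ad0 ρbar) :=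
  if DctUnipShape ρbar q then dctZUnip p ρbar q else ⊥

/-- the line `L` has the strict-ordinary shape for `ρ̄|Γ_q` (used for `q = p`): `Γ_q` acts on `L` by
`ω d` and on `V/L` by `d`, with `ω` the mod `p` cyclotomic character and `d` unramified -/
def DctOrdShape (L : Submodule k ρbar.V) : Prop :=
  Module.finrank k ↥L = 1 ∧ ∃ ω d : lbGal q →* kˣ,
    (∀ (g : lbGal q) (a : ℕ), (∀ ζ : PadicAlgCl q, ζ ^ p = 1 → g ζ = ζ ^ a) →
      ((ω g : kˣ) : k) = (a : k)) ∧
    (∀ g, ∀ v ∈ L, dctLocEnd ρbar q g v = (((ω g * d g : kˣ) : kˣ) : k) • v) ∧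
    (∀ g v, dctLocEnd ρbar q g v - ((d g : kˣ) : k) • v ∈ L) ∧
    ∀ g ∈ locInertia q, d g = 1

/-- functions with values in `Hom(V/L, L)` -/
def dctOrdFun (L : Submodule k ρbar.V) : Submodule (ZMod p) (lbGal q → S56Ad0 ρbar) where
  carrier := {f | ∀ σ, LinearMap.range (f σ).val ≤ L ∧ L ≤ LinearMap.ker (f σ).val}
  add_mem' := by
    intro f g hf hg σ
    have h1 : ((f + g) σ).val = (f σ).val + (g σ).val := rfl
    rw [h1]
    refine ⟨?_, fun v hv => ?_⟩
    · rintro _ ⟨v, rfl⟩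
      exact L.add_mem ((hf σ).1 ⟨v, rfl⟩) ((hg σ).1 ⟨v, rfl⟩)
    · rw [LinearMap.mem_ker, LinearMap.add_apply, LinearMap.mem_ker.1 ((hf σ).2 hv),
        LinearMap.mem_ker.1 ((hg σ).2 hv), add_zero]
  zero_mem' := by
    intro σ
    have h1 : ((0 : lbGal q → S56Ad0 ρbar) σ).val = 0 := rfl
    rw [h1]
    refine ⟨?_, fun v _ => ?_⟩
    · rintro _ ⟨v, rfl⟩
      exact L.zero_mem
    · rw [LinearMap.mem_ker, LinearMap.zero_apply]
  smul_mem' := by
    intro a f hf σ
    have h1 : ((a • f) σ).val = (ZMod.castHom (dvd_refl p) k a) • (f σ).val := rfl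
    rw [h1]
    refine ⟨?_, fun v hv => ?_⟩
    · rintro _ ⟨v, rfl⟩
      exact L.smul_mem _ ((hf σ).1 ⟨v, rfl⟩)
    · rw [LinearMap.mem_ker, LinearMap.smul_apply, LinearMap.mem_ker.1 ((hf σ).2 hv), smul_zero]

theorem mem_dctOrdFun (L : Submodule k ρbar.V) (f : lbGal q → S56Ad0 ρbar) :
    f ∈ dctOrdFun p ρbar q L ↔
      ∀ σ, LinearMap.range (f σ).val ≤ L ∧ L ≤ LinearMap.ker (f σ).val := Iff.rfl

/-- the local coefficient system `ad⁰ρ̄` restricted to `Γ_q` -/
def dctLocAd : Representation (ZMod p) (lbGal q) (S56Ad0 ρbar) :=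
  (s56Ad0 p ρbar).comp (localGaloisToGlobal q)

open Classical in
/-- the strict-ordinary local condition (used at `q = p`): functions with values in `Hom(V/L, L)`
for the line `L` of ordinary shape, plus the coboundaries -/
def dctZord : Submodule (ZMod p) (lbGal q → S56Ad0 ρbar) :=
  if h : ∃ L, DctOrdShape p ρbar q L then
    dctOrdFun p ρbar q h.choose ⊔ smB1 (dctLocAd p ρbar q)
  else ⊥

end Local

section Family

variable {k : Type} [Field k] (p : ℕ) [Fact p.Prime] [CharP k p] (ρbar : ResidualGaloisRep k)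

open Classical in
/-- THE FAMILY of local conditions of the strict-ordinary dictionary -/
def dctZ (Smin : Finset ℕ) : S56LocCond p ρbar := fun q =>
  haveI : Fact ((q : Nat.Primes) : ℕ).Prime := ⟨q.2⟩
  if (q : ℕ) ∉ Smin then ⊤
  else if (q : ℕ) = p then dctZord p ρbar (q : ℕ)
  else dctZq p ρbar (q : ℕ)

theorem dctZ_of_not_mem (Smin : Finset ℕ) (q : Nat.Primes) (hq : (q : ℕ) ∉ Smin) :
    dctZ p ρbar Smin q = ⊤ :=
  if_pos hq

theorem dctZ_of_eq (Smin : Finset ℕ) (q : Nat.Primes) (hq : (q : ℕ) ∈ Smin) (hqp : (q : ℕ) = p) :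
    haveI : Fact ((q : Nat.Primes) : ℕ).Prime := ⟨q.2⟩
    dctZ p ρbar Smin q = dctZord p ρbar (q : ℕ) :=
  (if_neg (not_not.mpr hq)).trans (if_pos hqp)

theorem dctZ_of_ne (Smin : Finset ℕ) (q : Nat.Primes) (hq : (q : ℕ) ∈ Smin) (hqp : (q : ℕ) ≠ p) :
    haveI : Fact ((q : Nat.Primes) : ℕ).Prime := ⟨q.2⟩
    dctZ p ρbar Smin q = dctZq p ρbar (q : ℕ) :=
  (if_neg (not_not.mpr hq)).trans (if_neg hqp)

end Family

end Fermat.Agent.S56
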