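/-
S56 / T24f (row 417, helper25): the COCYCLE DICTIONARY for the flat condition.  DEFINITIONS (sorry-free).

The family of local conditions is helper26's `dctZ` with the strict-ordinary condition at `p` replaced
by the FLAT condition `dctZflatAt`: the `𝔽_p`-span of the smooth cocycles `f` of `Γ_q` with values in
`ad⁰ρ̄` such that the lift `(1 + ε f) ρ̄|Γ_q` is `LocFlat`, plus the coboundaries.  (Defined uniformly
for every prime `q`, used only at `q = p`: no transport along `q = p` is needed.)
-/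
import Fermat.Agent.S56.Dict.Defs
import Fermat.Agent.S56.Flat.Defs

set_option autoImplicit false
set_option linter.unusedVariables false
set_option linter.unusedSectionVars false

noncomputable section

namespace Fermat.Agent.S56

open Fermat.Agent.S55 ExtCitation IsLocalRing Polynomial

section Local

variable {k : Type} [Field k] (p : ℕ) [Fact p.Prime] [CharP k p] (ρbar : ResidualGaloisRep k)
  (q : ℕ) [Fact q.Prime]

/-- `ρ̄` restricted to the local Galois group at `q` -/
def dctLocHom : lbGal q →* Module.End k ρbar.V := ρbar.ρ.comp (localGaloisToGlobal q)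

theorem dctLocHom_apply (σ : lbGal q) : dctLocHom ρbar q σ = ρbar.ρ (localGaloisToGlobal q σ) := rfl

/-- the underlying `End V`-valued function of an `ad⁰`-valued function -/
def dctVal (f : lbGal q → S56Ad0 ρbar) : lbGal q → Module.End k ρbar.V := fun τ => (f τ).val

/-- the smooth local cocycles whose lift `(1 + ε f) ρ̄|Γ_q` is flat -/
def dctFlatSet : Set (lbGal q → S56Ad0 ρbar) :=
  {f | IsFlCocycle (dctLocHom ρbar q) (dctVal ρbar q f) ∧ IsLC₁ (lbLevels q) f ∧
    LocFlat q (flExtAct (dctLocHom ρbar q) (dctVal ρbar q f))}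

/-- the flat local condition (used at `q = p`) -/
def dctZflatAt : Submodule (ZMod p) (lbGal q → S56Ad0 ρbar) :=
  Submodule.span (ZMod p) (dctFlatSet ρbar q) ⊔ smB1 (dctLocAd p ρbar q)

end Local

section Family

variable {k : Type} [Field k] (p : ℕ) [Fact p.Prime] [CharP k p] (ρbar : ResidualGaloisRep k)

open Classical in
/-- THE FAMILY of local conditions of the flat dictionary -/
def dctZflat (Smin : Finset ℕ) : S56LocCond p ρbar := fun q =>
  haveI : Fact ((q : Nat.Primes) : ℕ).Prime := ⟨q.2⟩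
  if (q : ℕ) ∉ Smin then ⊤
  else if (q : ℕ) = p then dctZflatAt p ρbar (q : ℕ)
  else dctZq p ρbar (q : ℕ)

theorem dctZflat_of_not_mem (Smin : Finset ℕ) (q : Nat.Primes) (hq : (q : ℕ) ∉ Smin) :
    dctZflat p ρbar Smin q = ⊤ :=
  if_pos hq

theorem dctZflat_of_eq (Smin : Finset ℕ) (q : Nat.Primes) (hq : (q : ℕ) ∈ Smin)
    (hqp : (q : ℕ) = p) :
    haveI : Fact ((q : Nat.Primes) : ℕ).Prime := ⟨q.2⟩
    dctZflat p ρbar Smin q = dctZflatAt p ρbar (q : ℕ) :=
  (if_neg (not_not.mpr hq)).trans (if_pos hqp)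

theorem dctZflat_of_ne (Smin : Finset ℕ) (q : Nat.Primes) (hq : (q : ℕ) ∈ Smin)
    (hqp : (q : ℕ) ≠ p) :
    haveI : Fact ((q : Nat.Primes) : ℕ).Prime := ⟨q.2⟩
    dctZflat p ρbar Smin q = dctZq p ρbar (q : ℕ) :=
  (if_neg (not_not.mpr hq)).trans (if_neg hqp)

/-- away from `p` the flat family is the ordinary family -/
theorem dctZflat_eq_dctZ (Smin : Finset ℕ) (q : Nat.Primes) (hqp : (q : ℕ) ≠ p) :
    dctZflat p ρbar Smin q = dctZ p ρbar Smin q := by
  by_cases hq : (q : ℕ) ∈ Smin
  · rw [dctZflat_of_ne p ρbar Smin q hq hqp, dctZ_of_ne p ρbar Smin q hq hqp]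
  · rw [dctZflat_of_not_mem p ρbar Smin q hq, dctZ_of_not_mem p ρbar Smin q hq]

end Family

end Fermat.Agent.S56
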