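/-
S56 / T24f (row 417, helper25): the two COUNTS of the flat dictionary.
* `dct_card_flat_le`   : the flat classes at `p`: `#L_p ≤ #k · #H⁰(ℚ_p, ad⁰ρ̄)` (from `fl_main`:
  the flat cocycles lie in a set `Z` of at most `#k ^ 4` functions containing the coboundaries, and
  `#B¹ · #H⁰ = #ad⁰ ≥ #k ^ 3`);
* `dct_card_flat_q_le` : the minimal classes at `q ≠ p` (the family is `dctZ` there: CNT-q verbatim).
-/
import Fermat.Agent.S56.Dict.FlatDefs
import Fermat.Agent.S56.Dict.CountUnip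
import Fermat.Agent.S56.Flat.Main
import Fermat.Agent.S55.LG.QbarLevels

set_option autoImplicit false
set_option linter.unusedVariables false
set_option linter.unusedSectionVars false

noncomputable section

namespace Fermat.Agent.S56

open Fermat.Agent.S55 ExtCitation IsLocalRing Polynomial

section Hyp

variable {k : Type} [Field k] (p : ℕ) [Fact p.Prime] [CharP k p] (ρbar : ResidualGaloisRep k)

/-- `ρ̄|Γ_p` is smooth -/
theorem dct_locHom_smooth : ∃ E : IntermediateField ℚ_[p] (PadicAlgCl p),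
    FiniteDimensional ℚ_[p] ↥E ∧ ∀ τ ∈ E.fixingSubgroup, dctLocHom ρbar p τ = 1 := by
  obtain ⟨L, hL, h1⟩ := ρbar.factorsThroughFiniteLevel
  have hlev : (levelsAll.comap (localGaloisToGlobal p)).IsLevel
      (L.fixingSubgroup.comap (localGaloisToGlobal p)) := ⟨L.fixingSubgroup, ⟨L, hL, rfl⟩, rfl⟩
  obtain ⟨E, hE, hEq⟩ := (lg_isLevel_comap_iff p _).1 hlev
  refine ⟨E, hE, fun τ hτ => ?_⟩
  rw [← hEq, Subgroup.mem_comap, IntermediateField.mem_fixingSubgroup_iff] at hτ
  exact h1 _ hτ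

/-- `det ρ̄|Γ_p` is the mod `p` cyclotomic character -/
theorem dct_locHom_det (hdet : (GaloisRepAdic.ofResidualGaloisRep ρbar).DetIsCyclotomic p)
    (τ : lbGal p) (a : ℕ) (ha : FlCyc τ a) : LinearMap.det (dctLocHom ρbar p τ) = (a : k) := by
  have h1 := hdet.2 1 (localGaloisToGlobal p τ) a (fun μ hμ => by
    have hinj : Function.Injective (padicEmbedding p) := (padicEmbedding p).injective
    apply hinj
    rw [padicEmbedding_localGaloisToGlobal, map_pow]
    apply ha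
    rw [pow_one] at hμ
    rw [← map_pow, hμ, map_one])
  have h2 : (((p ^ 1 : ℕ) : ℕ) : k) = 0 := by
    rw [pow_one]
    exact CharP.cast_eq_zero k p
  rw [h2, Ideal.span_singleton_zero, Ideal.mem_bot, sub_eq_zero] at h1
  exact h1

end Hyp

section Count

variable {k : Type} [Field k] [Finite k] (p : ℕ) [Fact p.Prime] [CharP k p]
  (ρbar : ResidualGaloisRep k)

theorem dct_finite_V : Module.Finite k ρbar.V := Module.finite_of_finrank_eq_succ ρbar.finrank_eq

/-- `#ad⁰ ≥ #k ^ 3` -/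
theorem dct_card_ad0_ge : Nat.card k ^ 3 ≤ Nat.card (S56Ad0 ρbar) := by
  haveI := dct_finite_V ρbar
  show Nat.card k ^ 3 ≤ Nat.card ↥(LinearMap.ker (LinearMap.trace k ρbar.V))
  rw [Module.natCard_eq_pow_finrank (K := k) (V := ↥(LinearMap.ker (LinearMap.trace k ρbar.V)))]
  apply Nat.pow_le_pow_right Nat.card_pos
  have h1 := LinearMap.finrank_range_add_finrank_ker (LinearMap.trace k ρbar.V)
  rw [Module.finrank_linearMap, ρbar.finrank_eq] at h1
  have h2 : Module.finrank k ↥(LinearMap.range (LinearMap.trace k ρbar.V)) ≤ 1 := by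
    have := Submodule.finrank_le (LinearMap.range (LinearMap.trace k ρbar.V))
    rwa [Module.finrank_self] at this
  omega

theorem dctVal_injective (q : ℕ) [Fact q.Prime] : Function.Injective (dctVal ρbar q) := by
  intro f g h
  funext τ
  exact S56Ad0.ext (congrFun h τ)

theorem dctVal_add (q : ℕ) [Fact q.Prime] (f g : lbGal q → S56Ad0 ρbar) :
    dctVal ρbar q (f + g) = dctVal ρbar q f + dctVal ρbar q g := rfl

theorem dctVal_zero (q : ℕ) [Fact q.Prime] : dctVal ρbar q 0 = 0 := rfl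

theorem dctVal_nsmul (q : ℕ) [Fact q.Prime] (n : ℕ) (f : lbGal q → S56Ad0 ρbar) :
    dctVal ρbar q (n • f) = n • dctVal ρbar q f := by
  induction n with
  | zero => rw [zero_smul, zero_smul]; rfl
  | succ n ih => rw [succ_nsmul, succ_nsmul, dctVal_add, ih]

theorem dctVal_dd0 (X : S56Ad0 ρbar) :
    dctVal ρbar p (dd0 (dctLocAd p ρbar p) X) = flCobdry (dctLocHom ρbar p) X.val := by
  funext τ
  show (s56Ad0 p ρbar (localGaloisToGlobal p τ) X - X).val = _
  unfold flCobdry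
  rw [dctLocHom_apply, dctLocHom_apply, map_inv]
  rfl

theorem isLC₁_of_dctVal (q : ℕ) [Fact q.Prime] (f : lbGal q → S56Ad0 ρbar)
    (h : IsLC₁ (lbLevels q) (dctVal ρbar q f)) : IsLC₁ (lbLevels q) f := by
  obtain ⟨U, hU, hf⟩ := h
  exact ⟨U, hU, fun g s hs => S56Ad0.ext (hf g s hs)⟩

/-- **the count at `p`, local form** -/
theorem dct_card_flat_local (hp2 : p ≠ 2)
    (hdet : (GaloisRepAdic.ofResidualGaloisRep ρbar).DetIsCyclotomic p)
    (hsplit : ∀ σ : GQ, ∃ α β : k, LinearMap.charpoly (ρbar.ρ σ) = (X - C α) * (X - C β))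
    (𝓛 : Levels (lbGal p)) (h𝓛 : 𝓛 = lbLevels p) :
    Nat.card ↥(((dctZflatAt p ρbar p).comap (smZ1 𝓛 (dctLocAd p ρbar p)).subtype).map
      (smH1π 𝓛 (dctLocAd p ρbar p))) ≤
      Nat.card k * Nat.card ↥(smH0 (dctLocAd p ρbar p)) := by
  subst h𝓛
  haveI := dct_finite_V ρbar
  set r := dctLocHom ρbar p with hr
  set ρ := dctLocAd p ρbar p with hρ
  obtain ⟨Z, hZ1, hZ2, hZ3, hZfin, hZcard⟩ := fl_main hp2 ρbar.finrank_eq r
    (dct_locHom_smooth p ρbar) (dct_locHom_det p ρbar hdet) (fun τ => hsplit _)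
  haveI := hZfin
  -- (A) the flat condition lies in `Z`
  have hA : ∀ f ∈ dctZflatAt p ρbar p, dctVal ρbar p f ∈ Z := by
    intro f hf
    obtain ⟨s, hs, b, hb, rfl⟩ := Submodule.mem_sup.1 hf
    rw [dctVal_add]
    apply Z.add_mem
    · refine Submodule.span_induction (p := fun x _ => dctVal ρbar p x ∈ Z) ?_ ?_ ?_ ?_ hs
      · intro x hx
        exact hZ3 _ hx.1 (fun τ => (x τ).trace_val) (hx.2.1.comp _) hx.2.2
      · rw [dctVal_zero]
        exact Z.zero_mem
      · intro x y _ _ hx hy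
        rw [dctVal_add]
        exact Z.add_mem hx hy
      · intro a x _ hx
        have h1 : a • x = a.val • x := by
          rw [← Nat.cast_smul_eq_nsmul (ZMod p), ZMod.natCast_zmod_val]
        rw [h1, dctVal_nsmul]
        exact Z.nsmul_mem hx _
    · obtain ⟨X, rfl⟩ := (mem_smB1 _ _).1 hb
      rw [dctVal_dd0]
      exact hZ2 _ X.trace_val
  set C := (dctZflatAt p ρbar p).comap (smZ1 (lbLevels p) ρ).subtype with hC
  -- (i) `C` is finite of size `≤ #Z`
  let ι : ↥C → ↥Z := fun c => ⟨dctVal ρbar p c.1.1, hA _ c.2⟩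
  have hι : Function.Injective ι := by
    intro c c' h
    apply Subtype.ext
    apply Subtype.ext
    exact dctVal_injective ρbar p (congrArg Subtype.val h)
  haveI : Finite ↥C := Finite.of_injective ι hι
  have hCZ : Nat.card ↥C ≤ Nat.card ↥Z := Nat.card_le_card_of_injective ι hι
  -- (ii) the class map on `C`
  set π' : ↥C →ₗ[ZMod p] smH1 (lbLevels p) ρ := (smH1π (lbLevels p) ρ).comp C.subtype with hπ'
  have hrange : LinearMap.range π' = C.map (smH1π (lbLevels p) ρ) := by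
    rw [hπ', LinearMap.range_comp, Submodule.range_subtype]
  have hcardC : Nat.card ↥C = Nat.card ↥(LinearMap.ker π') * Nat.card ↥(LinearMap.range π') := by
    rw [Submodule.card_eq_card_quotient_mul_card (LinearMap.ker π'),
      Nat.card_congr (LinearMap.quotKerEquivRange π').toEquiv, mul_comm]
  -- (iii) the coboundary map into `C`
  have hdd0mem : ∀ X : S56Ad0 ρbar, dd0 ρ X ∈ smZ1 (lbLevels p) ρ := by
    intro X
    refine (mem_smZ1 _ _ _).2 ⟨dd1_dd0 ρ X, isLC₁_of_dctVal ρbar p _ ?_⟩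
    rw [dctVal_dd0]
    exact (hZ1 _ (hZ2 _ X.trace_val)).2.2
  have hdd0C : ∀ X : S56Ad0 ρbar, (⟨dd0 ρ X, hdd0mem X⟩ : ↥(smZ1 (lbLevels p) ρ)) ∈ C := by
    intro X
    show dd0 ρ X ∈ dctZflatAt p ρbar p
    exact Submodule.mem_sup_right ((mem_smB1 _ _).2 ⟨X, rfl⟩)
  let β : S56Ad0 ρbar →ₗ[ZMod p] ↥C :=
    { toFun := fun X => ⟨⟨dd0 ρ X, hdd0mem X⟩, hdd0C X⟩
      map_add' := fun X Y => by
        apply Subtype.ext
        apply Subtype.ext
        exact map_add (dd0 ρ) X Y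
      map_smul' := fun a X => by
        apply Subtype.ext
        apply Subtype.ext
        exact map_smul (dd0 ρ) a X }
  have hβker : LinearMap.ker β = smH0 ρ := by
    ext X
    rw [LinearMap.mem_ker]
    constructor
    · intro h
      exact LinearMap.mem_ker.2 (congrArg (fun c : ↥C => (c.1.1 : lbGal p → S56Ad0 ρbar)) h)
    · intro h
      apply Subtype.ext
      apply Subtype.ext
      exact LinearMap.mem_ker.1 h
  have hβrange : LinearMap.range β ≤ LinearMap.ker π' := by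
    rintro _ ⟨X, rfl⟩
    rw [LinearMap.mem_ker]
    show smH1π (lbLevels p) ρ ⟨dd0 ρ X, hdd0mem X⟩ = 0
    rw [Submodule.mkQ_apply, Submodule.Quotient.mk_eq_zero]
    exact (mem_smB1 _ _).2 ⟨X, rfl⟩
  haveI : Finite (S56Ad0 ρbar) := Module.finite_of_finite k
  have hcardM : Nat.card (S56Ad0 ρbar) =
      Nat.card ↥(smH0 ρ) * Nat.card ↥(LinearMap.range β) := by
    rw [Submodule.card_eq_card_quotient_mul_card (LinearMap.ker β),
      Nat.card_congr (LinearMap.quotKerEquivRange β).toEquiv, hβker]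
  have hle : Nat.card ↥(LinearMap.range β) ≤ Nat.card ↥(LinearMap.ker π') :=
    Nat.card_le_card_of_injective (Submodule.inclusion hβrange)
      (Submodule.inclusion_injective hβrange)
  -- (iv) arithmetic
  rw [← hrange]
  set m := Nat.card ↥(LinearMap.range π') with hm
  set h0 := Nat.card ↥(smH0 ρ) with hh0
  set b := Nat.card ↥(LinearMap.range β) with hb
  set kk := Nat.card k with hkk
  have hk3 := dct_card_ad0_ge ρbar
  have hkpos : 0 < kk ^ 3 := Nat.pos_of_ne_zero (pow_ne_zero _ Nat.card_pos.ne')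
  have h1 : m * kk ^ 3 ≤ (kk * h0) * kk ^ 3 := by
    calc m * kk ^ 3 ≤ m * Nat.card (S56Ad0 ρbar) := Nat.mul_le_mul_left _ hk3
      _ = h0 * (b * m) := by rw [hcardM]; ring
      _ ≤ h0 * (Nat.card ↥(LinearMap.ker π') * m) :=
          Nat.mul_le_mul_left _ (Nat.mul_le_mul_right _ hle)
      _ = h0 * Nat.card ↥C := by rw [hcardC]
      _ ≤ h0 * kk ^ 4 := Nat.mul_le_mul_left _ (hCZ.trans hZcard)
      _ = (kk * h0) * kk ^ 3 := by ring
  exact Nat.le_of_mul_le_mul_right h1 hkpos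

/-- the count for an arbitrary prime `q = p` and an arbitrary level structure equal to `lbLevels q` -/
theorem dct_card_flat_core (hp2 : p ≠ 2)
    (hdet : (GaloisRepAdic.ofResidualGaloisRep ρbar).DetIsCyclotomic p)
    (hsplit : ∀ σ : GQ, ∃ α β : k, LinearMap.charpoly (ρbar.ρ σ) = (X - C α) * (X - C β))
    (q : ℕ) [Fact q.Prime] (hqp : q = p) (𝓛 : Levels (lbGal q)) (h𝓛 : 𝓛 = lbLevels q) :
    Nat.card ↥(((dctZflatAt p ρbar q).comap (smZ1 𝓛 (dctLocAd p ρbar q)).subtype).map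
      (smH1π 𝓛 (dctLocAd p ρbar q))) ≤
      Nat.card k * Nat.card ↥(smH0 (dctLocAd p ρbar q)) := by
  subst hqp
  exact dct_card_flat_local q ρbar hp2 hdet hsplit 𝓛 h𝓛

/-- **CNT-p (flat).** the flat classes at `p`: `#L_p ≤ #k · #H⁰(ℚ_p, ad⁰ρ̄)`. -/
theorem dct_card_flat_le (hp2 : p ≠ 2)
    (hdet : (GaloisRepAdic.ofResidualGaloisRep ρbar).DetIsCyclotomic p)
    (hsplit : ∀ σ : GQ, ∃ α β : k, LinearMap.charpoly (ρbar.ρ σ) = (X - C α) * (X - C β))
    (Smin : Finset ℕ) (hpSmin : p ∈ Smin)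
    (S' : Finset Nat.Primes) (v : ↥S') (hv : ((v.1 : Nat.Primes) : ℕ) = p) :
    Nat.card ↥(s56LocSub p ρbar S' (dctZflat p ρbar Smin) v) ≤ Nat.card k *
      Nat.card ↥(smH0 ((locSysS S').rep (s56Ad0 p ρbar) v)) := by
  have : Fact ((v.1 : Nat.Primes) : ℕ).Prime := ⟨v.1.2⟩
  unfold s56LocSub
  rw [dctZflat_of_eq p ρbar Smin v.1 (hv ▸ hpSmin) hv]
  exact dct_card_flat_core p ρbar hp2 hdet hsplit ((v.1 : Nat.Primes) : ℕ) hv ((locSysS S').lev v)
    (lg_locSysS_lev S' v)

/-- **CNT-q (flat family).** the minimal classes at `q ∈ Smin`, `q ≠ p`. -/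
theorem dct_card_flat_q_le (hp2 : p ≠ 2) (Smin : Finset ℕ)
    (S' : Finset Nat.Primes) (v : ↥S') (hv : ((v.1 : Nat.Primes) : ℕ) ∈ Smin)
    (hvp : ((v.1 : Nat.Primes) : ℕ) ≠ p) :
    Nat.card ↥(s56LocSub p ρbar S' (dctZflat p ρbar Smin) v) ≤
      Nat.card ↥(smH0 ((locSysS S').rep (s56Ad0 p ρbar) v)) := by
  have h := dct_card_unip_le p ρbar hp2 Smin S' v hv hvp
  unfold s56LocSub at h ⊢
  rw [dctZflat_eq_dctZ p ρbar Smin v.1 hvp]
  exact h

end Count

end Fermat.Agent.S56
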