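/-
S56 / T24o leaf CNT-q (row 440): the minimal classes at `q ∈ Smin`, `q ≠ p`:
`#L_q ≤ #H⁰(ℚ_q, ad⁰ρ̄)`.  Statement verbatim from `Dict/Spec.lean`; proof from LOC C4
(`loc_unip_exists_cobound`) and C1 (`loc_finrank_smH1ur_le` with `k := ZMod p`).
(Helper names are prefixed `dctcu`.)
-/
import Fermat.Agent.S56.Dict.Defs
import Fermat.Agent.S56.Loc.Unip
import Fermat.Agent.S56.Loc.UrCount
import Fermat.Agent.S55.LG.QbarLevels

set_option autoImplicit false
set_option linter.unusedVariables false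
set_option linter.unusedSectionVars false

noncomputable section

namespace Fermat.Agent.S56

open Fermat.Agent.S55 ExtCitation IsLocalRing Polynomial

variable {k : Type} [Field k] [Finite k] (p : ℕ) [Fact p.Prime] [CharP k p]
  (ρbar : ResidualGaloisRep k)

section Core

variable (q : ℕ) [Fact q.Prime]

/-- `ρ̄` restricted to the local Galois group at `q` -/
def dctcuRep : Representation k (lbGal q) ρbar.V := ρbar.ρ.comp (localGaloisToGlobal q)

theorem dctcuRep_apply (σ : lbGal q) : dctcuRep ρbar q σ = dctLocEnd ρbar q σ := rfl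

omit [Finite k] in
theorem dctcu_isSmooth : IsSmoothRep (lbLevels q) (dctcuRep ρbar q) := by
  obtain ⟨L, hL, h1⟩ := ρbar.factorsThroughFiniteLevel
  have hlev : (levelsAll.comap (localGaloisToGlobal q)).IsLevel
      (L.fixingSubgroup.comap (localGaloisToGlobal q)) := ⟨L.fixingSubgroup, ⟨L, hL, rfl⟩, rfl⟩
  rw [lg_levelsAll_comap_localGaloisToGlobal q] at hlev
  intro v
  refine ⟨_, hlev, fun s hs => ?_⟩
  have hs' : localGaloisToGlobal q s ∈ L.fixingSubgroup := hs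
  have h2 : ρbar.ρ (localGaloisToGlobal q s) = 1 :=
    h1 _ fun x hx => (IntermediateField.mem_fixingSubgroup_iff _ _).mp hs' x hx
  show ρbar.ρ (localGaloisToGlobal q s) v = v
  rw [h2, Module.End.one_apply]

theorem dctLocAd_apply_val (σ : lbGal q) (f : S56Ad0 ρbar) :
    (dctLocAd p ρbar q σ f).val =
      dctLocEnd ρbar q σ * f.val * dctLocEnd ρbar q σ⁻¹ := by
  show ρbar.ρ (localGaloisToGlobal q σ) * f.val * ρbar.ρ ((localGaloisToGlobal q σ)⁻¹) = _
  rw [dctLocEnd, dctLocEnd, map_inv (localGaloisToGlobal q) σ]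

theorem dctcu_isSmooth_ad : IsSmoothRep (lbLevels q) (dctLocAd p ρbar q) := by
  obtain ⟨L, hL, h1⟩ := ρbar.factorsThroughFiniteLevel
  have hlev : (levelsAll.comap (localGaloisToGlobal q)).IsLevel
      (L.fixingSubgroup.comap (localGaloisToGlobal q)) := ⟨L.fixingSubgroup, ⟨L, hL, rfl⟩, rfl⟩
  rw [lg_levelsAll_comap_localGaloisToGlobal q] at hlev
  intro f
  refine ⟨_, hlev, fun s hs => ?_⟩
  have hs' : localGaloisToGlobal q s ∈ L.fixingSubgroup := hs
  have hs'' : localGaloisToGlobal q s⁻¹ ∈ L.fixingSubgroup := by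
    rw [map_inv]
    exact inv_mem hs'
  have h2 : dctLocEnd ρbar q s = 1 :=
    h1 _ fun x hx => (IntermediateField.mem_fixingSubgroup_iff _ _).mp hs' x hx
  have h3 : dctLocEnd ρbar q s⁻¹ = 1 :=
    h1 _ fun x hx => (IntermediateField.mem_fixingSubgroup_iff _ _).mp hs'' x hx
  apply S56Ad0.ext
  rw [dctLocAd_apply_val, h2, h3, one_mul, mul_one]

/-- the classes cut out by `dctZq` are unramified (LOC C4) -/
theorem dctcu_le_smH1ur (hp2 : p ≠ 2) (hqp : q ≠ p) (hshape : DctUnipShape ρbar q) :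
    ((dctZUnip p ρbar q).comap (smZ1 (lbLevels q) (dctLocAd p ρbar q)).subtype).map
        (smH1π (lbLevels q) (dctLocAd p ρbar q)) ≤
      smH1ur (lbLevels q) (locInertia q) (dctLocAd p ρbar q) := by
  rintro _ ⟨z, hz, rfl⟩
  rw [SetLike.mem_coe, Submodule.mem_comap] at hz
  have hzZ := z.2
  rw [mem_smZ1] at hzZ
  obtain ⟨hz1, hz2⟩ := hzZ
  have hcoc : ∀ σ τ : lbGal q, ((z : lbGal q → S56Ad0 ρbar) (σ * τ)).val =
      ((z : lbGal q → S56Ad0 ρbar) σ).val +
        dctcuRep ρbar q σ * ((z : lbGal q → S56Ad0 ρbar) τ).val * dctcuRep ρbar q σ⁻¹ := by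
    intro σ τ
    have h := congrFun hz1 (σ, τ)
    rw [dd1_apply, Pi.zero_apply] at h
    have h' : (z : lbGal q → S56Ad0 ρbar) (σ * τ) =
        dctLocAd p ρbar q σ ((z : lbGal q → S56Ad0 ρbar) τ) + (z : lbGal q → S56Ad0 ρbar) σ := by
      rw [sub_add_eq_add_sub, sub_eq_zero] at h
      exact h.symm
    rw [h', S56Ad0.val_add, dctLocAd_apply_val, add_comm]
    rfl
  obtain ⟨m, hm0, hm⟩ := loc_unip_exists_cobound q p hp2 hqp ρbar.finrank_eq (dctcuRep ρbar q)
    (dctcu_isSmooth ρbar q) hshape.1 hshape.2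
    (fun σ => ((z : lbGal q → S56Ad0 ρbar) σ).val)
    (fun σ => ((z : lbGal q → S56Ad0 ρbar) σ).trace_val) hcoc
    (hz2.comp fun f : S56Ad0 ρbar => f.val)
    (fun σ hσ => hz σ hσ)
  refine smH1π_mem_smH1ur _ _ _ z (S56Ad0.mk m hm0) fun σ hσ => ?_
  apply S56Ad0.ext
  have h1 := hm σ hσ
  have h2 : (dctLocAd p ρbar q σ (S56Ad0.mk m hm0) - S56Ad0.mk m hm0).val =
      dctLocEnd ρbar q σ * m * dctLocEnd ρbar q σ⁻¹ - m := by
    have : (dctLocAd p ρbar q σ (S56Ad0.mk m hm0) - S56Ad0.mk m hm0).val =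
        (dctLocAd p ρbar q σ (S56Ad0.mk m hm0)).val - (S56Ad0.mk m hm0).val := rfl
    rw [this, dctLocAd_apply_val, S56Ad0.val_mk]
  rw [h2]
  exact h1

/-- the count for an arbitrary level structure equal to `lbLevels q` -/
theorem dctcu_core (hp2 : p ≠ 2) (hqp : q ≠ p) (𝓛 : Levels (lbGal q)) (h𝓛 : 𝓛 = lbLevels q) :
    Nat.card ↥(((dctZq p ρbar q).comap (smZ1 𝓛 (dctLocAd p ρbar q)).subtype).map
        (smH1π 𝓛 (dctLocAd p ρbar q))) ≤
      Nat.card ↥(smH0 (dctLocAd p ρbar q)) := by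
  subst h𝓛
  by_cases hshape : DctUnipShape ρbar q
  · have hZ : dctZq p ρbar q = dctZUnip p ρbar q := if_pos hshape
    rw [hZ]
    obtain ⟨hfd, hle⟩ := loc_finrank_smH1ur_le q (k := ZMod p) (dctLocAd p ρbar q)
      (dctcu_isSmooth_ad p ρbar q)
    have hfin : Finite ↥(smH1ur (lbLevels q) (locInertia q) (dctLocAd p ρbar q)) :=
      Module.finite_of_finite (ZMod p)
    have h1 : Nat.card ↥(((dctZUnip p ρbar q).comap
          (smZ1 (lbLevels q) (dctLocAd p ρbar q)).subtype).map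
          (smH1π (lbLevels q) (dctLocAd p ρbar q))) ≤
        Nat.card ↥(smH1ur (lbLevels q) (locInertia q) (dctLocAd p ρbar q)) :=
      Nat.card_le_card_of_injective
        (Submodule.inclusion (dctcu_le_smH1ur p ρbar q hp2 hqp hshape))
        (Submodule.inclusion_injective _)
    refine h1.trans ?_
    rw [Module.natCard_eq_pow_finrank (K := ZMod p),
      Module.natCard_eq_pow_finrank (K := ZMod p) (V := ↥(smH0 (dctLocAd p ρbar q)))]
    exact Nat.pow_le_pow_right (Nat.card_pos) hle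
  · have hZ : dctZq p ρbar q = ⊥ := if_neg hshape
    rw [hZ]
    have hbot : ((⊥ : Submodule (ZMod p) (lbGal q → S56Ad0 ρbar)).comap
        (smZ1 (lbLevels q) (dctLocAd p ρbar q)).subtype).map
        (smH1π (lbLevels q) (dctLocAd p ρbar q)) = ⊥ := by
      rw [eq_bot_iff]
      rintro _ ⟨z, hz, rfl⟩
      rw [SetLike.mem_coe, Submodule.mem_comap, Submodule.mem_bot] at hz
      have : z = 0 := Subtype.ext hz
      rw [this, map_zero]
      exact Submodule.zero_mem _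
    rw [hbot]
    have : Nat.card ↥(⊥ : Submodule (ZMod p) (smH1 (lbLevels q) (dctLocAd p ρbar q))) = 1 :=
      Nat.card_unique
    rw [this]
    exact Nat.card_pos

end Core

section CNT

/-- **CNT-q.** the minimal classes at `q ∈ Smin`, `q ≠ p`: `#L_q ≤ #H⁰(ℚ_q, ad⁰ρ̄)`. -/
theorem dct_card_unip_le (hp2 : p ≠ 2) (Smin : Finset ℕ)
    (S' : Finset Nat.Primes) (v : ↥S') (hv : ((v.1 : Nat.Primes) : ℕ) ∈ Smin)
    (hvp : ((v.1 : Nat.Primes) : ℕ) ≠ p) :
    Nat.card ↥(s56LocSub p ρbar S' (dctZ p ρbar Smin) v) ≤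
      Nat.card ↥(smH0 ((locSysS S').rep (s56Ad0 p ρbar) v)) := by
  have : Fact ((v.1 : Nat.Primes) : ℕ).Prime := ⟨v.1.2⟩
  unfold s56LocSub
  rw [dctZ_of_ne p ρbar Smin v.1 hv hvp]
  exact dctcu_core p ρbar ((v.1 : Nat.Primes) : ℕ) hp2 hvp ((locSysS S').lev v)
    (lg_locSysS_lev S' v)

end CNT

end Fermat.Agent.S56
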