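/-
S56 / T24o leaf CNT-p (row 439): the strict-ordinary classes at `p`:
`#L_p ≤ #k · #H⁰(ℚ_p, ad⁰ρ̄)`.  Statement verbatim from `Dict/Spec.lean`; proof = BRIDGE from
`dctZord` (functions with values in `Hom(V/L, L)` + coboundaries, `ZMod p`-cohomology of
`S56Ad0 ρ̄`) to the `k`-linear `ordClasses` of LOC C5 `loc_ord_finrank_le`.
(Helper names are prefixed `dctco`.)
-/
import Fermat.Agent.S56.Dict.CountUnip
import Fermat.Agent.S56.Loc.Spec

set_option autoImplicit false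
set_option linter.unusedVariables false
set_option linter.unusedSectionVars false

noncomputable section

namespace Fermat.Agent.S56

open Fermat.Agent.S55 ExtCitation IsLocalRing Polynomial

variable {k : Type} [Field k] [Finite k] (p : ℕ) [Fact p.Prime] [CharP k p]
  (ρbar : ResidualGaloisRep k)

section Conv

/-- `S56Ad0 ρ̄ → ad0Space k ρ̄.V` (the identity) -/
def dctcoToK (f : S56Ad0 ρbar) : ↥(ad0Space k ρbar.V) := ⟨f.val, f.trace_val⟩

/-- `ad0Space k ρ̄.V → S56Ad0 ρ̄` (the identity) -/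
def dctcoToZ (X : ↥(ad0Space k ρbar.V)) : S56Ad0 ρbar :=
  S56Ad0.mk (X : Module.End k ρbar.V) ((mem_ad0Space _).1 X.2)

@[simp] theorem dctcoToK_coe (f : S56Ad0 ρbar) :
    ((dctcoToK ρbar f : ↥(ad0Space k ρbar.V)) : Module.End k ρbar.V) = f.val := rfl

@[simp] theorem dctcoToZ_val (X : ↥(ad0Space k ρbar.V)) :
    (dctcoToZ ρbar X).val = (X : Module.End k ρbar.V) := rfl

@[simp] theorem dctcoToZ_toK (f : S56Ad0 ρbar) : dctcoToZ ρbar (dctcoToK ρbar f) = f := rfl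

@[simp] theorem dctcoToK_toZ (X : ↥(ad0Space k ρbar.V)) : dctcoToK ρbar (dctcoToZ ρbar X) = X := rfl

theorem dctcoToK_add (f g : S56Ad0 ρbar) :
    dctcoToK ρbar (f + g) = dctcoToK ρbar f + dctcoToK ρbar g := rfl

theorem dctcoToK_sub (f g : S56Ad0 ρbar) :
    dctcoToK ρbar (f - g) = dctcoToK ρbar f - dctcoToK ρbar g := rfl

theorem dctcoToK_zero : dctcoToK ρbar 0 = 0 := rfl

theorem dctcoToZ_sub (X Y : ↥(ad0Space k ρbar.V)) :
    dctcoToZ ρbar (X - Y) = dctcoToZ ρbar X - dctcoToZ ρbar Y := rfl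

end Conv

section Core

variable (q : ℕ) [Fact q.Prime]

/-- the `k`-linear adjoint action and the `ZMod p`-linear one agree -/
theorem dctco_rep_eq (σ : lbGal q) (f : S56Ad0 ρbar) :
    ad0Rep (dctcuRep ρbar q) σ (dctcoToK ρbar f) = dctcoToK ρbar (dctLocAd p ρbar q σ f) := by
  apply Subtype.ext
  rw [dctcoToK_coe, dctLocAd_apply_val]
  rfl

theorem dctco_dd1_eq (g : lbGal q → S56Ad0 ρbar) (x : lbGal q × lbGal q) :
    dd1 (ad0Rep (dctcuRep ρbar q)) (fun σ => dctcoToK ρbar (g σ)) x =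
      dctcoToK ρbar (dd1 (dctLocAd p ρbar q) g x) := by
  show ad0Rep (dctcuRep ρbar q) x.1 (dctcoToK ρbar (g x.2)) - dctcoToK ρbar (g (x.1 * x.2)) +
      dctcoToK ρbar (g x.1) =
    dctcoToK ρbar (dctLocAd p ρbar q x.1 (g x.2) - g (x.1 * x.2) + g x.1)
  rw [dctco_rep_eq, dctcoToK_add, dctcoToK_sub]

theorem dctco_dd0_eq (m : S56Ad0 ρbar) (x : lbGal q) :
    dd0 (ad0Rep (dctcuRep ρbar q)) (dctcoToK ρbar m) x =
      dctcoToK ρbar (dd0 (dctLocAd p ρbar q) m x) := by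
  show ad0Rep (dctcuRep ρbar q) x (dctcoToK ρbar m) - dctcoToK ρbar m =
    dctcoToK ρbar (dctLocAd p ρbar q x m - m)
  rw [dctco_rep_eq, dctcoToK_sub]

theorem dctcoToK_injective : Function.Injective (dctcoToK ρbar) :=
  Function.LeftInverse.injective (g := dctcoToZ ρbar) (dctcoToZ_toK ρbar)

/-- a cocycle of the `ZMod p`-theory as a cocycle of the `k`-theory -/
def dctcoZ1K (z : ↥(smZ1 (lbLevels q) (dctLocAd p ρbar q))) :
    ↥(smZ1 (lbLevels q) (ad0Rep (dctcuRep ρbar q))) :=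
  ⟨fun σ => dctcoToK ρbar ((z : lbGal q → S56Ad0 ρbar) σ), by
    have hz := z.2
    rw [mem_smZ1] at hz ⊢
    refine ⟨?_, hz.2.comp (dctcoToK ρbar)⟩
    funext x
    rw [dctco_dd1_eq, hz.1]
    rfl⟩

theorem dctcoZ1K_apply (z : ↥(smZ1 (lbLevels q) (dctLocAd p ρbar q))) (σ : lbGal q) :
    (dctcoZ1K p ρbar q z : lbGal q → ↥(ad0Space k ρbar.V)) σ =
      dctcoToK ρbar ((z : lbGal q → S56Ad0 ρbar) σ) := rfl

/-- classes of `dctOrdFun L + B¹` have a cocycle representative in `dctOrdFun L` -/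
theorem dctco_exists (L : Submodule k ρbar.V) (x : smH1 (lbLevels q) (dctLocAd p ρbar q))
    (hx : x ∈ ((dctOrdFun p ρbar q L ⊔ smB1 (dctLocAd p ρbar q)).comap
      (smZ1 (lbLevels q) (dctLocAd p ρbar q)).subtype).map
        (smH1π (lbLevels q) (dctLocAd p ρbar q))) :
    ∃ z : ↥(smZ1 (lbLevels q) (dctLocAd p ρbar q)),
      smH1π (lbLevels q) (dctLocAd p ρbar q) z = x ∧
        (z : lbGal q → S56Ad0 ρbar) ∈ dctOrdFun p ρbar q L := by
  obtain ⟨z₀, hz₀, rfl⟩ := hx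
  rw [SetLike.mem_coe, Submodule.mem_comap, Submodule.mem_sup] at hz₀
  obtain ⟨g, hg, b, hb, hgb⟩ := hz₀
  have hbZ : b ∈ smZ1 (lbLevels q) (dctLocAd p ρbar q) :=
    smB1_le_smZ1 (dctcu_isSmooth_ad p ρbar q) hb
  have hgb' : g + b = (z₀ : lbGal q → S56Ad0 ρbar) := hgb
  have hgZ : g ∈ smZ1 (lbLevels q) (dctLocAd p ρbar q) := by
    have h1 : g = (z₀ : lbGal q → S56Ad0 ρbar) - b := by
      rw [← hgb']
      abel
    rw [h1]
    exact (smZ1 (lbLevels q) (dctLocAd p ρbar q)).sub_mem z₀.2 hbZ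
  refine ⟨⟨g, hgZ⟩, ?_, hg⟩
  have h2 : z₀ = ⟨g, hgZ⟩ + ⟨b, hbZ⟩ := Subtype.ext hgb'.symm
  rw [h2, map_add, (smH1π_eq_zero_iff (lbLevels q) (dctLocAd p ρbar q) ⟨b, hbZ⟩).2 hb, add_zero]

/-- `H⁰` of the two theories have the same cardinality -/
theorem dctco_card_smH0 :
    Nat.card ↥(smH0 (ad0Rep (dctcuRep ρbar q))) = Nat.card ↥(smH0 (dctLocAd p ρbar q)) := by
  refine Nat.card_congr
    { toFun := fun X => ⟨dctcoToZ ρbar X.1, ?_⟩
      invFun := fun m => ⟨dctcoToK ρbar m.1, ?_⟩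
      left_inv := fun X => rfl
      right_inv := fun m => rfl }
  · have hX : dd0 (ad0Rep (dctcuRep ρbar q)) X.1 = 0 := X.2
    show dd0 (dctLocAd p ρbar q) (dctcoToZ ρbar X.1) = 0
    funext σ
    apply dctcoToK_injective ρbar
    rw [← dctco_dd0_eq, dctcoToK_toZ, hX]
    rfl
  · have hm : dd0 (dctLocAd p ρbar q) m.1 = 0 := m.2
    show dd0 (ad0Rep (dctcuRep ρbar q)) (dctcoToK ρbar m.1) = 0
    funext σ
    rw [dctco_dd0_eq, hm]
    rfl

/-- the injection of the `dctOrdFun L + B¹`-classes into `ordClasses` -/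
theorem dctco_card_le_ordClasses (L : Submodule k ρbar.V)
    [Finite ↥(ordClasses (lbLevels q) (dctcuRep ρbar q) L)] :
    Nat.card ↥(((dctOrdFun p ρbar q L ⊔ smB1 (dctLocAd p ρbar q)).comap
      (smZ1 (lbLevels q) (dctLocAd p ρbar q)).subtype).map
        (smH1π (lbLevels q) (dctLocAd p ρbar q))) ≤
      Nat.card ↥(ordClasses (lbLevels q) (dctcuRep ρbar q) L) := by
  choose z hz1 hz2 using fun x : ↥(((dctOrdFun p ρbar q L ⊔ smB1 (dctLocAd p ρbar q)).comap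
      (smZ1 (lbLevels q) (dctLocAd p ρbar q)).subtype).map
        (smH1π (lbLevels q) (dctLocAd p ρbar q))) => dctco_exists p ρbar q L x.1 x.2
  refine Nat.card_le_card_of_injective
    (fun x => (⟨smH1π (lbLevels q) (ad0Rep (dctcuRep ρbar q)) (dctcoZ1K p ρbar q (z x)),
      ⟨dctcoZ1K p ρbar q (z x), fun σ => hz2 x σ, rfl⟩⟩ :
        ↥(ordClasses (lbLevels q) (dctcuRep ρbar q) L))) ?_
  intro x y hxy
  have h1 : smH1π (lbLevels q) (ad0Rep (dctcuRep ρbar q)) (dctcoZ1K p ρbar q (z x)) =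
      smH1π (lbLevels q) (ad0Rep (dctcuRep ρbar q)) (dctcoZ1K p ρbar q (z y)) :=
    congrArg Subtype.val hxy
  rw [← sub_eq_zero, ← map_sub, smH1π_eq_zero_iff] at h1
  obtain ⟨m, hm⟩ := h1
  have h2 : ((z x - z y : ↥(smZ1 (lbLevels q) (dctLocAd p ρbar q))) : lbGal q → S56Ad0 ρbar) ∈
      smB1 (dctLocAd p ρbar q) := by
    refine ⟨dctcoToZ ρbar m, ?_⟩
    funext σ
    apply dctcoToK_injective ρbar
    rw [← dctco_dd0_eq, dctcoToK_toZ, hm]
    rfl
  have h3 := (smH1π_eq_zero_iff (lbLevels q) (dctLocAd p ρbar q) (z x - z y)).2 h2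
  rw [map_sub, sub_eq_zero, hz1 x, hz1 y] at h3
  exact Subtype.ext h3

/-- the count for an arbitrary level structure equal to `lbLevels q`, `q = p` -/
theorem dctco_core (hp2 : p ≠ 2) (hqp : q = p) (𝓛 : Levels (lbGal q)) (h𝓛 : 𝓛 = lbLevels q) :
    Nat.card ↥(((dctZord p ρbar q).comap (smZ1 𝓛 (dctLocAd p ρbar q)).subtype).map
        (smH1π 𝓛 (dctLocAd p ρbar q))) ≤
      Nat.card k * Nat.card ↥(smH0 (dctLocAd p ρbar q)) := by
  subst h𝓛
  by_cases h : ∃ L, DctOrdShape p ρbar q L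
  · have hZ : dctZord p ρbar q =
        dctOrdFun p ρbar q h.choose ⊔ smB1 (dctLocAd p ρbar q) := dif_pos h
    rw [hZ]
    obtain ⟨hL1, ω, d, hω, hLact, hQ, hdur⟩ := h.choose_spec
    subst hqp
    obtain ⟨hfd, hle⟩ := loc_ord_finrank_le q hp2 ρbar.finrank_eq (dctcuRep ρbar q)
      (dctcu_isSmooth ρbar q) h.choose hL1 ω d hω hLact hQ
    have : Finite ↥(ordClasses (lbLevels q) (dctcuRep ρbar q) h.choose) :=
      Module.finite_of_finite k
    refine (dctco_card_le_ordClasses q ρbar q h.choose).trans ?_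
    rw [← dctco_card_smH0 q ρbar q, Module.natCard_eq_pow_finrank (K := k),
      Module.natCard_eq_pow_finrank (K := k) (V := ↥(smH0 (ad0Rep (dctcuRep ρbar q)))),
      ← pow_succ']
    exact Nat.pow_le_pow_right Nat.card_pos hle
  · have hZ : dctZord p ρbar q = ⊥ := dif_neg h
    rw [hZ]
    have hbot : ((⊥ : Submodule (ZMod p) (lbGal q → S56Ad0 ρbar)).comap
        (smZ1 (lbLevels q) (dctLocAd p ρbar q)).subtype).map
        (smH1π (lbLevels q) (dctLocAd p ρbar q)) = ⊥ := by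
      rw [eq_bot_iff]
      rintro _ ⟨z, hz, rfl⟩
      rw [SetLike.mem_coe, Submodule.mem_comap, Submodule.mem_bot] at hz
      have : z = 0 := Subtype.ext hz
      rw [this, map_zero]
      exact Submodule.zero_mem _
    rw [hbot]
    have : Nat.card ↥(⊥ : Submodule (ZMod p) (smH1 (lbLevels q) (dctLocAd p ρbar q))) = 1 :=
      Nat.card_unique
    rw [this]
    exact Nat.mul_pos Nat.card_pos Nat.card_pos

end Core

section CNT

/-- **CNT-p.** the strict-ordinary classes at `p`: `#L_p ≤ #k · #H⁰(ℚ_p, ad⁰ρ̄)`. -/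
theorem dct_card_ord_le (hp2 : p ≠ 2) (Smin : Finset ℕ) (hpSmin : p ∈ Smin)
    (S' : Finset Nat.Primes) (v : ↥S') (hv : ((v.1 : Nat.Primes) : ℕ) = p) :
    Nat.card ↥(s56LocSub p ρbar S' (dctZ p ρbar Smin) v) ≤ Nat.card k *
      Nat.card ↥(smH0 ((locSysS S').rep (s56Ad0 p ρbar) v)) := by
  have : Fact ((v.1 : Nat.Primes) : ℕ).Prime := ⟨v.1.2⟩
  unfold s56LocSub
  rw [dctZ_of_eq p ρbar Smin v.1 (hv ▸ hpSmin) hv]
  exact dctco_core p ρbar ((v.1 : Nat.Primes) : ℕ) hp2 hv ((locSysS S').lev v)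
    (lg_locSysS_lev S' v)

end CNT

end Fermat.Agent.S56
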