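/-
S56 / T24o row 444 (helper15): UNIQ - the line of ordinary shape is unique (`p` odd).
Input: the mod `p` cyclotomic character is ramified (`Ce/Cyc.lean`, `ce3_exists_inertia_pow_ne`).
-/
import Fermat.Agent.S56.Dict.Defs
import Fermat.Agent.S56.Ce.Cyc

set_option autoImplicit false
set_option linter.unusedVariables false
set_option linter.unusedSectionVars false

noncomputable section

namespace Fermat.Agent.S56

open Fermat.Agent.S55 ExtCitation IsLocalRing Polynomial

variable {k : Type} [Field k] [Finite k] (p : ℕ) [Fact p.Prime] [CharP k p]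
  (ρbar : ResidualGaloisRep k)

section Dictionary

/-- one inclusion -/
theorem dctu_le (hp2 : p ≠ 2) (L L' : Submodule k ρbar.V)
    (h : DctOrdShape p ρbar p L) (h' : DctOrdShape p ρbar p L') : L ≤ L' := by
  obtain ⟨-, ω, d, hω, hL, -, hd⟩ := h
  obtain ⟨-, ω', d', -, -, hQ', hd'⟩ := h'
  obtain ⟨σ, hσ, hne⟩ := ce3_exists_inertia_pow_ne p hp2
  have hσ' : σ ∈ locInertia p := hσ
  obtain ⟨a, ha⟩ := ce3_exists_pow p σ
  have ha1 : (a : k) ≠ 1 := by
    intro h1
    apply hne a ha
    have h2 : ((a : ℕ) : k) = ((1 : ℕ) : k) := by rw [h1, Nat.cast_one]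
    exact (CharP.natCast_eq_natCast k p).mp h2
  intro v hv
  have h1 : dctLocEnd ρbar p σ v = (a : k) • v := by
    rw [hL σ v hv, Units.val_mul, hω σ a ha, hd σ hσ', Units.val_one, mul_one]
  have h2 : dctLocEnd ρbar p σ v - v ∈ L' := by
    have := hQ' σ v
    rwa [hd' σ hσ', Units.val_one, one_smul] at this
  rw [h1] at h2
  have h3 : ((a : k) - 1) • v ∈ L' := by
    rwa [sub_smul, one_smul]
  have h4 : v = ((a : k) - 1)⁻¹ • (((a : k) - 1) • v) := by
    rw [smul_smul, inv_mul_cancel₀ (sub_ne_zero.mpr ha1), one_smul]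
  rw [h4]
  exact L'.smul_mem _ h3

/-- **UNIQ.** two lines of ordinary shape coincide: otherwise `V = L ⊕ L'` and inertia acts
trivially on `V/L` and on `V/L'`, hence on `V`, hence `ω` is trivial on inertia; but `ω` is ramified
at `p ≠ 2` (`ζ_p ∉` any unramified extension: `rm_ord_zeta_sub_one` gives `(p-1) v(ζ_p - 1) = v(p) = 1`;
`locInertia_eq_fixingSubgroup`, `Loc/Ur.lean`). -/
theorem dct_ordShape_unique (hp2 : p ≠ 2) (L L' : Submodule k ρbar.V)
    (h : DctOrdShape p ρbar p L) (h' : DctOrdShape p ρbar p L') : L = L' :=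
  le_antisymm (dctu_le p ρbar hp2 L L' h h') (dctu_le p ρbar hp2 L' L h' h)

end Dictionary

end Fermat.Agent.S56
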