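/-
S56 / T24o (row 442, leaf RAM of helper26's Dict package): ramification is seen by the local
inertia group.

`ρ̄` ramified at `q` (Prelude: SOME valuation subring of `ℚ̄` over `q`, some element of its inertia
group acts non-trivially)  ⟹  some `σ ∈ locInertia q` has `ρ̄(localGaloisToGlobal q σ) ≠ 1`.

Route.  `ker ρ̄` is normal, so (`mink_inertia_le_of_conj`) the inertia group of `padicPlace q` is not
inside it: `σ₀` inertial at `padicPlace q`, `ρ̄ σ₀ ≠ 1`.  `K'` := the kernel field of `ρ̄`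
(`sb_exists_field_of_le`), a Galois number field.  `σ₀ = h · r_q(γ)`, `h` fixing `K'`
(`s56inf_inertia_decomp`), so `ρ̄ (r_q γ) = ρ̄ σ₀ ≠ 1`.  `E := ℚ_q · K'` (`lgField`) is finite Galois
over `ℚ_q`; `γ|E` acts trivially on the residue field of `E` (`K'` is dense in `E`, and on `K'`
`r_q γ = σ₀` is inertial), so (`loc_exists_inertia_lift`) there is `τ ∈ locInertia q` with
`τ|E = γ|E`; then `r_q τ` and `r_q γ` agree on `K'`, hence `ρ̄ (r_q τ) = ρ̄ (r_q γ) ≠ 1`.
-/
import Fermat.Agent.S56.Dict.Defs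
import Fermat.Agent.S56.Top.Inf
import Fermat.Agent.S56.Loc.Lift
import Fermat.Agent.S55.SB.Galois

set_option autoImplicit false
set_option linter.unusedVariables false
set_option linter.unusedSectionVars false
set_option linter.style.haveILetI false

noncomputable section

namespace Fermat.Agent.S56

open Fermat.Agent.S55 ExtCitation NumberField

section Ram

local instance dctr_isAlgebraic : Algebra.IsAlgebraic ℚ (AlgebraicClosure ℚ) :=
  AlgebraicClosure.isAlgebraic ℚ
local instance dctr_isAlgClosure : IsAlgClosure ℚ (AlgebraicClosure ℚ) :=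
  ⟨inferInstance, inferInstance⟩
local instance dctr_normal : Normal ℚ (AlgebraicClosure ℚ) :=
  IsAlgClosure.normal ℚ (AlgebraicClosure ℚ)
local instance dctr_isGalois : IsGalois ℚ (AlgebraicClosure ℚ) := IsGalois.mk

variable (q : ℕ) [Fact q.Prime]

/-- `ℚ_q · K'` is normal over `ℚ_q` for `K'/ℚ` normal -/
theorem dctr_normal_lgField (K' : IntermediateField ℚ (AlgebraicClosure ℚ)) [NumberField K']
    [Normal ℚ K'] : Normal ℚ_[q] (lgField q (lgEmbQbar q K')) := by
  rw [IntermediateField.normal_iff_forall_map_le']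
  intro τ
  unfold lgField
  rw [IntermediateField.adjoin_map, IntermediateField.adjoin_le_iff]
  rintro _ ⟨_, ⟨x, rfl⟩, rfl⟩
  apply IntermediateField.subset_adjoin
  have h1 : ((localGaloisToGlobal q τ).restrictNormal K' x : AlgebraicClosure ℚ) =
      localGaloisToGlobal q τ (x : AlgebraicClosure ℚ) :=
    AlgEquiv.restrictNormal_commutes (localGaloisToGlobal q τ) K' x
  refine ⟨(localGaloisToGlobal q τ).restrictNormal K' x, ?_⟩
  rw [lgEmbQbar_apply, h1, padicEmbedding_localGaloisToGlobal]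
  rfl

/-- the kernel field of `ρ̄` -/
theorem dctr_exists_kernel_field {k : Type} [Field k] (ρbar : ResidualGaloisRep k) :
    ∃ K' : IntermediateField ℚ (AlgebraicClosure ℚ), FiniteDimensional ℚ ↥K' ∧ IsGalois ℚ ↥K' ∧
      ρbar.ρ.ker = K'.fixingSubgroup := by
  obtain ⟨L, hL, h1⟩ := ρbar.factorsThroughFiniteLevel
  have hle : L.fixingSubgroup ≤ ρbar.ρ.ker := fun σ hσ => by
    rw [MonoidHom.mem_ker]
    exact h1 σ (fun x hx => (IntermediateField.mem_fixingSubgroup_iff L σ).mp hσ x hx)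
  obtain ⟨E, hEL, hE⟩ := sb_exists_field_of_le ρbar.ρ.ker L hL hle
  refine ⟨E, ?_, ?_, hE⟩
  · haveI := hL
    exact FiniteDimensional.of_injective (IntermediateField.inclusion hEL).toLinearMap
      (IntermediateField.inclusion_injective hEL)
  · have hN : E.fixingSubgroup.Normal := by
      rw [← hE]
      exact MonoidHom.normal_ker _
    have hG := (InfiniteGalois.normal_iff_isGalois E).mp hN
    convert hG
    exact Subsingleton.elim _ _

end Ram

section Main

local instance dctr_isAlgebraic' : Algebra.IsAlgebraic ℚ (AlgebraicClosure ℚ) :=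
  AlgebraicClosure.isAlgebraic ℚ
local instance dctr_isAlgClosure' : IsAlgClosure ℚ (AlgebraicClosure ℚ) :=
  ⟨inferInstance, inferInstance⟩
local instance dctr_normal' : Normal ℚ (AlgebraicClosure ℚ) :=
  IsAlgClosure.normal ℚ (AlgebraicClosure ℚ)

variable {k : Type} [Field k] [Finite k] (ρbar : ResidualGaloisRep k)

/-- **RAM.** `ρ̄` ramified at `q` in the Prelude's sense (SOME valuation subring over `q`) ⟹ `ρ̄`
is non-trivial on the local inertia group. -/
theorem dct_exists_inertia_ne_one (q : ℕ) [Fact q.Prime] (h : ¬ ρbar.IsUnramifiedAt q) :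
    ∃ σ ∈ locInertia q, dctLocEnd ρbar q σ ≠ 1 := by
  have hq : q.Prime := Fact.out
  -- an inertial element at `padicPlace q` acting non-trivially
  have h0 : ∃ σ₀ ∈ (padicPlace q).inertiaSubgroupIn ℚ, ρbar.ρ σ₀ ≠ 1 := by
    by_contra hcon
    push Not at hcon
    apply h
    intro A hA σ hσ
    have hle : (padicPlace q).inertiaSubgroupIn ℚ ≤ ρbar.ρ.ker := fun σ hσ =>
      MonoidHom.mem_ker.mpr (hcon σ hσ)
    haveI : (ρbar.ρ.ker).Normal := MonoidHom.normal_ker _
    exact MonoidHom.mem_ker.mp (Fermat.Agent.S13.mink_inertia_le_of_conj q hq ρbar.ρ.ker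
      (padicPlace q) A (padicPlace_liesOverPrime q) hA hle hσ)
  obtain ⟨σ₀, hσ₀, hρσ₀⟩ := h0
  obtain ⟨K', hK'fd, hK'gal, hker⟩ := dctr_exists_kernel_field ρbar
  haveI : NumberField ↥K' := sb_numberField hK'fd
  haveI : Normal ℚ ↥K' := hK'gal.to_normal
  have hkerρ : ∀ g : GQ, g ∈ K'.fixingSubgroup → ρbar.ρ g = 1 := fun g hg => by
    rw [← hker] at hg
    exact MonoidHom.mem_ker.mp hg
  obtain ⟨h₁, hh₁, γ, hγ⟩ := s56inf_inertia_decomp q K' σ₀ hσ₀
  -- `ρ̄ (r_q γ) ≠ 1`
  have hργ : ρbar.ρ (localGaloisToGlobal q γ) ≠ 1 := by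
    intro hc
    apply hρσ₀
    rw [hγ, map_mul, hkerρ h₁ hh₁, hc, one_mul]
  -- on `K'`, `r_q γ` acts as `σ₀`
  have hγK : ∀ x : ↥K', localGaloisToGlobal q γ (x : AlgebraicClosure ℚ) =
      σ₀ (x : AlgebraicClosure ℚ) := by
    intro x
    have h1 : ((σ₀.restrictNormal ↥K' x : ↥K') : AlgebraicClosure ℚ) =
        σ₀ (x : AlgebraicClosure ℚ) := AlgEquiv.restrictNormal_commutes σ₀ ↥K' x
    have h2 : σ₀ (x : AlgebraicClosure ℚ) =
        h₁ (localGaloisToGlobal q γ (x : AlgebraicClosure ℚ)) := by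
      rw [hγ]
      rfl
    have h3 : h₁⁻¹ (σ₀ (x : AlgebraicClosure ℚ)) = σ₀ (x : AlgebraicClosure ℚ) := by
      rw [← h1]
      exact (IntermediateField.mem_fixingSubgroup_iff K' h₁⁻¹).mp (inv_mem hh₁) _
        (SetLike.coe_mem _)
    rw [← h3, h2, ← AlgEquiv.mul_apply, inv_mul_cancel, AlgEquiv.one_apply]
  -- the local field `E = ℚ_q K'`
  set E : IntermediateField ℚ_[q] (PadicAlgCl q) := lgField q (lgEmbQbar q K') with hE
  haveI hEN : Normal ℚ_[q] ↥E := dctr_normal_lgField q K'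
  haveI hEG : IsGalois ℚ_[q] ↥E := IsGalois.mk
  have hcomm : ∀ y : ↥E, ((γ.restrictNormal ↥E y : ↥E) : PadicAlgCl q) = γ (y : PadicAlgCl q) :=
    fun y => AlgEquiv.restrictNormal_commutes γ ↥E y
  have hres : ∀ y : ↥E, ‖(y : PadicAlgCl q)‖ ≤ 1 →
      ‖((γ.restrictNormal ↥E y : ↥E) : PadicAlgCl q) - y‖ < 1 := by
    intro y hy
    rw [hcomm]
    obtain ⟨x, hx⟩ := lg_dense q (lgEmbQbar q K') y one_pos
    rw [lgEmbQbar_apply] at hx
    have hx1 : ‖padicEmbedding q (x : AlgebraicClosure ℚ)‖ ≤ 1 := by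
      have h1 : padicEmbedding q (x : AlgebraicClosure ℚ) =
          (y : PadicAlgCl q) + -((y : PadicAlgCl q) - padicEmbedding q x) := by ring
      rw [h1]
      refine (PadicAlgCl.isNonarchimedean q _ _).trans (max_le hy ?_)
      rw [norm_neg]
      exact hx.le
    have hin := Fermat.Agent.S05.isInertial_of_mem_inertiaSubgroupIn _ _ hσ₀
    have h2 := hin.sub_mem (x : AlgebraicClosure ℚ) ((lgqi_mem_padicPlace_iff q _).mpr hx1)
    rw [lgqi_mem_nonunits_padicPlace_iff, map_sub, ← hγK x,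
      padicEmbedding_localGaloisToGlobal] at h2
    have h3 : γ (y : PadicAlgCl q) - y =
        (γ ((y : PadicAlgCl q) - padicEmbedding q x) +
          -((y : PadicAlgCl q) - padicEmbedding q x)) +
        (γ (padicEmbedding q x) - padicEmbedding q x) := by
      rw [map_sub]
      ring
    rw [h3]
    refine lt_of_le_of_lt (PadicAlgCl.isNonarchimedean q _ _) (max_lt ?_ h2)
    refine lt_of_le_of_lt (PadicAlgCl.isNonarchimedean q _ _) (max_lt ?_ ?_)
    · rw [lgqi_norm_algEquiv]
      exact hx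
    · rw [norm_neg]
      exact hx
  obtain ⟨τ, hτ, hτE⟩ := loc_exists_inertia_lift q E (γ.restrictNormal ↥E) hres
  refine ⟨τ, hτ, ?_⟩
  -- `r_q τ` and `r_q γ` agree on `K'`
  have hτK : ∀ x : ↥K', localGaloisToGlobal q τ (x : AlgebraicClosure ℚ) =
      localGaloisToGlobal q γ (x : AlgebraicClosure ℚ) := by
    intro x
    apply (padicEmbedding q).toRingHom.injective
    show padicEmbedding q (localGaloisToGlobal q τ (x : AlgebraicClosure ℚ)) =
      padicEmbedding q (localGaloisToGlobal q γ (x : AlgebraicClosure ℚ))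
    rw [padicEmbedding_localGaloisToGlobal, padicEmbedding_localGaloisToGlobal]
    have hxE : padicEmbedding q (x : AlgebraicClosure ℚ) ∈ E :=
      range_le_lgField q (lgEmbQbar q K') x
    have h1 := hτE ⟨_, hxE⟩
    rw [hcomm] at h1
    exact h1
  have hmem : (localGaloisToGlobal q γ)⁻¹ * localGaloisToGlobal q τ ∈ K'.fixingSubgroup := by
    rw [IntermediateField.mem_fixingSubgroup_iff]
    intro x hx
    rw [AlgEquiv.mul_apply, hτK ⟨x, hx⟩, ← AlgEquiv.mul_apply, inv_mul_cancel,
      AlgEquiv.one_apply]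
  have h5 := hkerρ _ hmem
  intro hc
  apply hργ
  have h6 : localGaloisToGlobal q τ = localGaloisToGlobal q γ *
      ((localGaloisToGlobal q γ)⁻¹ * localGaloisToGlobal q τ) := by group
  unfold dctLocEnd at hc
  rw [h6, map_mul, h5, mul_one] at hc
  exact hc

end Main

end Fermat.Agent.S56
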