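/-
S56 / T24o leaf UNIP (row 441): a lift `(1 + ε c) ρ̄` to `k[ε]` which is unipotent on the inertia
groups at `q` forces `ρ̄` to be unipotent on the local inertia group and `tr (c(σ)(ρ̄(σ) - 1)) = 0`
there.  Statement verbatim from `Dict/Spec.lean`.  (Helper names are prefixed `dctu`.)
-/
import Fermat.Agent.S56.Dict.Defs
import Fermat.Agent.S56.Tan.Lift

set_option autoImplicit false
set_option linter.unusedVariables false
set_option linter.unusedSectionVars false

noncomputable section

namespace Fermat.Agent.S56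

open Fermat.Agent.S55 ExtCitation IsLocalRing Polynomial

section Matrix

variable {k : Type} [Field k]

/-- the trace of `M₀ + ε M₁` -/
theorem dctu_trace_mk (R B : Matrix (Fin 2) (Fin 2) k) :
    (s56tanMk R B).trace = TrivSqZeroExt.inl R.trace + TrivSqZeroExt.inr B.trace := by
  rw [Matrix.trace_fin_two, Matrix.trace_fin_two, Matrix.trace_fin_two]
  simp only [s56tanMk, Matrix.of_apply, TrivSqZeroExt.inl_add, TrivSqZeroExt.inr_add]
  abel

/-- the constant part of the determinant of `M₀ + ε M₁` -/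
theorem dctu_fst_det_mk (R B : Matrix (Fin 2) (Fin 2) k) :
    TrivSqZeroExt.fst (s56tanMk R B).det = R.det := by
  rw [Matrix.det_fin_two, Matrix.det_fin_two]
  simp [s56tanMk]

/-- a `2 × 2` matrix with trace `2` and determinant `1` is unipotent -/
theorem dctu_sq_eq_zero (R : Matrix (Fin 2) (Fin 2) k) (htr : R.trace = 2) (hdet : R.det = 1) :
    (R - 1) * (R - 1) = 0 := by
  have h := Matrix.aeval_self_charpoly R
  rw [Matrix.charpoly_fin_two, htr, hdet] at h
  simp only [map_add, map_sub, map_mul, map_pow, aeval_X, aeval_C, map_one] at h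
  have h2 : (algebraMap k (Matrix (Fin 2) (Fin 2) k)) 2 = 2 := by
    rw [map_ofNat]
  rw [h2] at h
  have : (R - 1) * (R - 1) = R ^ 2 - 2 * R + 1 := by
    rw [pow_two, sub_mul, mul_sub, mul_sub, Matrix.one_mul, Matrix.mul_one, Matrix.one_mul, two_mul]
    abel
  rw [this]
  exact h

end Matrix

variable {k : Type} [Field k] [Finite k] (p : ℕ) [Fact p.Prime] [CharP k p]
  (ρbar : ResidualGaloisRep k)

section Dictionary

variable (bbar : Module.Basis (Fin 2) k ρbar.V)
  (ρ₂ : GaloisRepAdic (DualNumber k)) (c : GQ → S56Ad0 ρbar)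

/-- **UNIP.** `ρ₂ = (1 + ε c) ρ̄` unipotent on inertia at `q` ⟹ `ρ̄` unipotent on the local inertia
and `tr (c(σ) (ρ̄(σ) - 1)) = 0` there. -/
theorem dct_nf_unip (hnf : S56IsTanLift ρbar bbar ρ₂ (fun g => (c g).val)) (q : ℕ) [Fact q.Prime]
    (hu : ρ₂.IsUnipotentOnInertiaAt q) (σ : lbGal q) (hσ : σ ∈ locInertia q) :
    (dctLocEnd ρbar q σ - 1) * (dctLocEnd ρbar q σ - 1) = 0 ∧
      LinearMap.trace k ρbar.V
        ((c (localGaloisToGlobal q σ)).val * (dctLocEnd ρbar q σ - 1)) = 0 := by
  obtain ⟨b', hb'⟩ := hnf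
  set τ : AlgebraicClosure ℚ ≃ₐ[ℚ] AlgebraicClosure ℚ := localGaloisToGlobal q σ with hτ
  have hin : τ ∈ (padicPlace q).inertiaSubgroupIn ℚ :=
    (localGaloisToGlobal_mem_inertiaSubgroupIn_iff q σ).mpr ((mem_locInertia q σ).mp hσ)
  have hcp := hu (padicPlace q) (padicPlace_liesOverPrime q) τ hin
  set R : Matrix (Fin 2) (Fin 2) k := LinearMap.toMatrix bbar bbar (ρbar.ρ τ) with hR
  set C : Matrix (Fin 2) (Fin 2) k := LinearMap.toMatrix bbar bbar (c τ).val with hC
  have hM : LinearMap.toMatrix b' b' (ρ₂.ρ τ) = s56tanMk R (C * R) := by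
    rw [hb' τ, LinearMap.toMatrix_mul]
  -- the characteristic polynomial in coordinates
  have hcp' : (s56tanMk R (C * R)).charpoly = (X - 1) ^ 2 := by
    rw [← hM, LinearMap.charpoly_toMatrix, hcp]
  rw [Matrix.charpoly_fin_two] at hcp'
  have hexp : ((X : (DualNumber k)[X]) - 1) ^ 2 = X ^ 2 - Polynomial.C 2 * X + Polynomial.C 1 := by
    rw [map_ofNat, map_one]
    ring
  rw [hexp] at hcp'
  have hc1 := congrArg (fun P : (DualNumber k)[X] => P.coeff 1) hcp'
  have hc0 := congrArg (fun P : (DualNumber k)[X] => P.coeff 0) hcp'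
  simp only [coeff_add, coeff_sub, coeff_X_pow, coeff_C_mul, coeff_X_one, coeff_C_succ,
    coeff_X_zero, coeff_C_zero, mul_one, mul_zero, OfNat.ofNat_ne_one, one_ne_zero,
    if_false, zero_sub, add_zero, sub_zero, zero_add, neg_inj,
    show (1 : ℕ) ≠ 2 from by norm_num, show (0 : ℕ) ≠ 2 from by norm_num] at hc1 hc0
  -- trace and determinant
  have h2 : (2 : DualNumber k) = TrivSqZeroExt.inl 2 := by
    rw [← map_ofNat (algebraMap k (DualNumber k)) 2]
    rfl
  rw [dctu_trace_mk, h2] at hc1
  have htrR : R.trace = 2 := by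
    have := congrArg TrivSqZeroExt.fst hc1
    simpa using this
  have htrCR : (C * R).trace = 0 := by
    have := congrArg TrivSqZeroExt.snd hc1
    simpa using this
  have hdetR : R.det = 1 := by
    have := congrArg TrivSqZeroExt.fst hc0
    rw [dctu_fst_det_mk] at this
    simpa using this
  have hsq := dctu_sq_eq_zero R htrR hdetR
  have hloc : dctLocEnd ρbar q σ = ρbar.ρ τ := rfl
  constructor
  · rw [hloc]
    apply (LinearMap.toMatrix bbar bbar).injective
    rw [LinearMap.toMatrix_mul, map_sub, LinearMap.toMatrix_one, map_zero]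
    exact hsq
  · rw [hloc, LinearMap.trace_eq_matrix_trace k bbar, LinearMap.toMatrix_mul, map_sub,
      LinearMap.toMatrix_one, Matrix.mul_sub, Matrix.mul_one, Matrix.trace_sub, htrCR, zero_sub,
      neg_eq_zero, ← LinearMap.trace_eq_matrix_trace k bbar]
    exact (c τ).trace_val

end Dictionary

end Fermat.Agent.S56
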