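/-
S56 / T24o (row 355, helper26): `s56_dict_ord` = the cocycle dictionary for the strict-ordinary
condition, ASSEMBLED from the leaves of `Dict/Spec.lean` (counts CNT-p/CNT-q, local dictionary
UNIP/RAM/ORD/UNIQ) and helper12's global part `s56tan_injective_sel_ord` (`Tan/Dict.lean`).
-/
import Fermat.Agent.S56.Dict.CountOrd
import Fermat.Agent.S56.Dict.CountUnip
import Fermat.Agent.S56.Dict.Unip
import Fermat.Agent.S56.Dict.Ram
import Fermat.Agent.S56.Dict.Ord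
import Fermat.Agent.S56.Dict.OrdUnique
import Fermat.Agent.S56.Tan.Dict

set_option autoImplicit false
set_option linter.unusedVariables false
set_option linter.unusedSectionVars false

noncomputable section

namespace Fermat.Agent.S56

open Fermat.Agent.S55 ExtCitation IsLocalRing Polynomial

section Local

variable {k : Type} [Field k] [Finite k] (p : ℕ) [Fact p.Prime] [CharP k p]
  (ρbar : ResidualGaloisRep k) (bbar : Module.Basis (Fin 2) k ρbar.V)
  (ρ₂ : GaloisRepAdic (DualNumber k)) (c : GQ → S56Ad0 ρbar)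

/-- the local dictionary at `p` -/
theorem dct_mem_dctZord (hp2 : p ≠ 2) (hnf : S56IsTanLift ρbar bbar ρ₂ (fun g => (c g).val))
    (hdet₂ : ρ₂.DetIsCyclotomic p) (hord : ρ₂.IsStrictOrdinaryAt p) :
    (fun σ : lbGal p => c (localGaloisToGlobal p σ)) ∈ dctZord p ρbar p := by
  obtain ⟨L, hL, X, hX⟩ := dct_nf_ord p ρbar bbar ρ₂ c hp2 hnf hdet₂ hord
  have hex : ∃ L, DctOrdShape p ρbar p L := ⟨L, hL⟩
  have hchoose : hex.choose = L := dct_ordShape_unique p ρbar hp2 _ _ hex.choose_spec hL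
  unfold dctZord
  rw [dif_pos hex, hchoose]
  have hsplit : (fun σ : lbGal p => c (localGaloisToGlobal p σ)) =
      (fun σ : lbGal p => c (localGaloisToGlobal p σ) -
        (s56Ad0 p ρbar (localGaloisToGlobal p σ) X - X)) + dd0 (dctLocAd p ρbar p) X := by
    funext σ
    show c (localGaloisToGlobal p σ) = c (localGaloisToGlobal p σ) -
      (s56Ad0 p ρbar (localGaloisToGlobal p σ) X - X) +
      (s56Ad0 p ρbar (localGaloisToGlobal p σ) X - X)
    abel
  rw [hsplit]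
  exact Submodule.add_mem_sup hX ((mem_smB1 _ _).mpr ⟨X, rfl⟩)

/-- the local dictionary at `q ∈ Smin`, `q ≠ p` -/
theorem dct_mem_dctZq (hnf : S56IsTanLift ρbar bbar ρ₂ (fun g => (c g).val)) (q : ℕ)
    [Fact q.Prime] (hu : ρ₂.IsUnipotentOnInertiaAt q) (hram : ¬ ρbar.IsUnramifiedAt q) :
    (fun σ : lbGal q => c (localGaloisToGlobal q σ)) ∈ dctZq p ρbar q := by
  have hshape : DctUnipShape ρbar q :=
    ⟨fun σ hσ => (dct_nf_unip ρbar bbar ρ₂ c hnf q hu σ hσ).1,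
      dct_exists_inertia_ne_one ρbar q hram⟩
  unfold dctZq
  rw [if_pos hshape, mem_dctZUnip]
  intro σ hσ
  exact (dct_nf_unip ρbar bbar ρ₂ c hnf q hu σ hσ).2

end Local

section Main

variable {𝒪 : Type} [CommRing 𝒪] [IsDomain 𝒪] [IsDiscreteValuationRing 𝒪]
  [IsAdicComplete (maximalIdeal 𝒪) 𝒪] [Finite (ResidueField 𝒪)]
  (p : ℕ) [Fact p.Prime] [CharP (ResidueField 𝒪) p]
  (ρbar : ResidualGaloisRep (ResidueField 𝒪))

/-- the local dictionary: the hypothesis `hloc` of `s56tan_injective_sel_ord` for `𝒵 = dctZ` -/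
theorem dct_hloc (hp2 : p ≠ 2) (Smin Q : Finset ℕ)
    (hmin : ∀ q : ℕ, q.Prime → q ≠ p → (q ∈ Smin ↔ ¬ ρbar.IsUnramifiedAt q))
    (bbar : Module.Basis (Fin 2) (ResidueField 𝒪) ρbar.V)
    (ρ' : GaloisRepAdic (DualNumber (ResidueField 𝒪))) (z : GQ → S56Ad0 ρbar)
    (hcond : letI := Fermat.Agent.S53.dualNumberAlgebra 𝒪
      s56CondOrd (𝒪 := 𝒪) p Smin Q ρ')
    (hnf : S56IsTanLift ρbar bbar ρ' (fun g => (z g).val)) (q : Nat.Primes) :
    (fun γ : primeLocalGaloisGroup q => z (primeLocalToGlobal q γ)) ∈ dctZ p ρbar Smin q := by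
  let _ := Fermat.Agent.S53.dualNumberAlgebra 𝒪
  have : Fact ((q : Nat.Primes) : ℕ).Prime := ⟨q.2⟩
  obtain ⟨⟨hdet₂, hord, hur⟩, hunip⟩ := hcond
  by_cases hq : (q : ℕ) ∈ Smin
  · by_cases hqp : (q : ℕ) = p
    · rw [dctZ_of_eq p ρbar Smin q hq hqp]
      obtain ⟨qn, hqn⟩ := q
      change qn = p at hqp
      subst hqp
      exact dct_mem_dctZord qn ρbar bbar ρ' z hp2 hnf hdet₂ hord
    · rw [dctZ_of_ne p ρbar Smin q hq hqp]
      exact dct_mem_dctZq p ρbar bbar ρ' z hnf (q : ℕ) (hunip (q : ℕ) hq q.2 hqp)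
        ((hmin (q : ℕ) q.2 hqp).mp hq)
  · rw [dctZ_of_not_mem p ρbar Smin q hq]
    exact Submodule.mem_top

/-- **leaf T24o.** the dictionary for the strict-ordinary condition -/
theorem s56_dict_ord (hp2 : p ≠ 2) (habs : ρbar.IsAbsolutelyIrreducible)
    (hdet : (GaloisRepAdic.ofResidualGaloisRep ρbar).DetIsCyclotomic p)
    (Smin : Finset ℕ) (hpSmin : p ∈ Smin) (hSminP : ∀ q ∈ Smin, q.Prime)
    (hmin : ∀ q : ℕ, q.Prime → q ≠ p → (q ∈ Smin ↔ ¬ ρbar.IsUnramifiedAt q)) :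
    S56Dict p ρbar Smin (fun Q => s56CondOrd (𝒪 := 𝒪) p Smin Q) := by
  have hb : Nonempty (Module.Basis (Fin 2) (ResidueField 𝒪) ρbar.V) := by
    have hfr : Module.finrank (ResidueField 𝒪) ρbar.V = 2 := ρbar.finrank_eq
    exact ⟨(Module.finBasisOfFinrankEq (ResidueField 𝒪) ρbar.V hfr)⟩
  obtain ⟨bbar⟩ := hb
  refine ⟨dctZ p ρbar Smin, fun q hq => dctZ_of_not_mem p ρbar Smin q hq, ?_, ?_, ?_⟩
  · intro S' v hv
    exact dct_card_ord_le p ρbar hp2 Smin hpSmin S' v hv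
  · intro S' v hv hvp
    exact dct_card_unip_le p ρbar hp2 Smin S' v hv hvp
  · intro Q hQ DQ
    exact s56tan_injective_sel_ord p Smin Q DQ bbar (dctZ p ρbar Smin)
      (fun ρ' z hcond _ hnf v => dct_hloc p ρbar hp2 Smin Q hmin bbar ρ' z hcond hnf v.1)

end Main

end Fermat.Agent.S56
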