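/-
S56 / T24f (row 417, helper25): `s56_dict_flat` = the cocycle dictionary for the FLAT condition,
ASSEMBLED from
* the flat family `dctZflat` (`Dict/FlatDefs.lean`) and its two counts (`Dict/FlatCount.lean`:
  `dct_card_flat_le` from `fl_main` = Fontaine's bound + the tame Kummer count; `dct_card_flat_q_le` =
  CNT-q of the ordinary dictionary),
* the local dictionary: at `p` the leaf TANFLAT `fl_locFlat_of_tanLift` (helper12), away from `p`
  helper26's `dct_mem_dctZq`,
* helper12's global part `s56tan_injective_sel_flat` (`Tan/Dict.lean`).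
-/
import Fermat.Agent.S56.Dict.FlatCount
import Fermat.Agent.S56.Dict.Main
import Fermat.Agent.S56.Flat.TanFlat
import Fermat.Agent.S56.Tan.Dict

set_option autoImplicit false
set_option linter.unusedVariables false
set_option linter.unusedSectionVars false

noncomputable section

namespace Fermat.Agent.S56

open Fermat.Agent.S55 ExtCitation IsLocalRing Polynomial

section Local

variable {k : Type} [Field k] [Finite k] (p : ℕ) [Fact p.Prime] [CharP k p]
  (ρbar : ResidualGaloisRep k) (bbar : Module.Basis (Fin 2) k ρbar.V)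
  (ρ₂ : GaloisRepAdic (DualNumber k)) (c : GQ → S56Ad0 ρbar)

/-- the local dictionary at `p` for the flat condition -/
theorem dct_mem_dctZflatAt (hnf : S56IsTanLift ρbar bbar ρ₂ (fun g => (c g).val))
    (hflat : ρ₂.IsFlatAt p) (hc : dd1 (s56Ad0 p ρbar) c = 0)
    (hlc : IsLC₁ (lbLevels p) (fun σ : lbGal p => c (localGaloisToGlobal p σ))) :
    (fun σ : lbGal p => c (localGaloisToGlobal p σ)) ∈ dctZflatAt p ρbar p := by
  apply Submodule.mem_sup_left
  apply Submodule.subset_span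
  refine ⟨?_, hlc, ?_⟩
  · intro σ τ
    have h : s56Ad0 p ρbar (localGaloisToGlobal p σ) (c (localGaloisToGlobal p τ)) -
        c (localGaloisToGlobal p σ * localGaloisToGlobal p τ) + c (localGaloisToGlobal p σ) = 0 :=
      congrFun hc (localGaloisToGlobal p σ, localGaloisToGlobal p τ)
    have h2 : c (localGaloisToGlobal p σ * localGaloisToGlobal p τ) =
        c (localGaloisToGlobal p σ) +
          s56Ad0 p ρbar (localGaloisToGlobal p σ) (c (localGaloisToGlobal p τ)) := by
      rw [sub_add_eq_add_sub, sub_eq_zero] at h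
      rw [← h, add_comm]
    show (c (localGaloisToGlobal p (σ * τ))).val = (c (localGaloisToGlobal p σ)).val +
      ρbar.ρ (localGaloisToGlobal p σ) * (c (localGaloisToGlobal p τ)).val *
        ρbar.ρ (localGaloisToGlobal p σ⁻¹)
    rw [map_mul, h2, map_inv]
    rfl
  · exact fl_locFlat_of_tanLift p ρbar bbar ρ₂ (fun g => (c g).val) hnf hflat

end Local

section Main

variable {𝒪 : Type} [CommRing 𝒪] [IsDomain 𝒪] [IsDiscreteValuationRing 𝒪]
  [IsAdicComplete (maximalIdeal 𝒪) 𝒪] [Finite (ResidueField 𝒪)]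
  (p : ℕ) [Fact p.Prime] [CharP (ResidueField 𝒪) p]
  (ρbar : ResidualGaloisRep (ResidueField 𝒪))

/-- the local dictionary: the hypothesis `hloc` of `s56tan_injective_sel_flat` for `𝒵 = dctZflat` -/
theorem dct_hloc_flat (hp2 : p ≠ 2) (Smin Q : Finset ℕ)
    (hmin : ∀ q : ℕ, q.Prime → q ≠ p → (q ∈ Smin ↔ ¬ ρbar.IsUnramifiedAt q))
    (bbar : Module.Basis (Fin 2) (ResidueField 𝒪) ρbar.V)
    (ρ' : GaloisRepAdic (DualNumber (ResidueField 𝒪))) (z : GQ → S56Ad0 ρbar)
    (hcond : letI := Fermat.Agent.S53.dualNumberAlgebra 𝒪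
      s56CondFlat (𝒪 := 𝒪) p Smin Q ρ')
    (hz : z ∈ smZ1 (levelsS (s56Primes (Smin ∪ Q))) (s56Ad0 p ρbar))
    (hnf : S56IsTanLift ρbar bbar ρ' (fun g => (z g).val)) (q : Nat.Primes) :
    (fun γ : primeLocalGaloisGroup q => z (primeLocalToGlobal q γ)) ∈
      dctZflat p ρbar Smin q := by
  let _ := Fermat.Agent.S53.dualNumberAlgebra 𝒪
  have : Fact ((q : Nat.Primes) : ℕ).Prime := ⟨q.2⟩
  obtain ⟨⟨hdet₂, hflat, hur⟩, hunip⟩ := hcond
  by_cases hq : (q : ℕ) ∈ Smin
  · by_cases hqp : (q : ℕ) = p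
    · rw [dctZflat_of_eq p ρbar Smin q hq hqp]
      have hlc : IsLC₁ (lbLevels ((q : Nat.Primes) : ℕ))
          (fun γ : primeLocalGaloisGroup q => z (primeLocalToGlobal q γ)) := by
        obtain ⟨U, hU, hf⟩ := hz.2
        rw [← lg_levelsAll_comap_primeLocalToGlobal q]
        refine ⟨U.comap (primeLocalToGlobal q),
          ⟨U, levelsS_isLevel_levelsAll _ U hU, rfl⟩, fun g s hs => ?_⟩
        show z (primeLocalToGlobal q (g * s)) = z (primeLocalToGlobal q g)
        have h1 : primeLocalToGlobal q (g * s) =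
            primeLocalToGlobal q g * primeLocalToGlobal q s := (primeLocalToGlobal q).map_mul g s
        exact (congrArg z h1).trans (hf _ _ hs)
      obtain ⟨qn, hqn⟩ := q
      change qn = p at hqp
      subst hqp
      exact dct_mem_dctZflatAt qn ρbar bbar ρ' z hnf hflat hz.1 hlc
    · rw [dctZflat_of_ne p ρbar Smin q hq hqp]
      exact dct_mem_dctZq p ρbar bbar ρ' z hnf (q : ℕ) (hunip (q : ℕ) hq q.2 hqp)
        ((hmin (q : ℕ) q.2 hqp).mp hq)
  · rw [dctZflat_of_not_mem p ρbar Smin q hq]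
    exact Submodule.mem_top

/-- **leaf T24f.** the dictionary for the flat condition (contains Fontaine's bound) -/
theorem s56_dict_flat (hp2 : p ≠ 2) (habs : ρbar.IsAbsolutelyIrreducible)
    (hdet : (GaloisRepAdic.ofResidualGaloisRep ρbar).DetIsCyclotomic p)
    (hsplit : ∀ σ : AlgebraicClosure ℚ ≃ₐ[ℚ] AlgebraicClosure ℚ,
      ∃ α β : ResidueField 𝒪, LinearMap.charpoly (ρbar.ρ σ) = (X - C α) * (X - C β))
    (Smin : Finset ℕ) (hpSmin : p ∈ Smin) (hSminP : ∀ q ∈ Smin, q.Prime)
    (hmin : ∀ q : ℕ, q.Prime → q ≠ p → (q ∈ Smin ↔ ¬ ρbar.IsUnramifiedAt q)) :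
    S56Dict p ρbar Smin (fun Q => s56CondFlat (𝒪 := 𝒪) p Smin Q) := by
  have hb : Nonempty (Module.Basis (Fin 2) (ResidueField 𝒪) ρbar.V) := by
    have hfr : Module.finrank (ResidueField 𝒪) ρbar.V = 2 := ρbar.finrank_eq
    exact ⟨(Module.finBasisOfFinrankEq (ResidueField 𝒪) ρbar.V hfr)⟩
  obtain ⟨bbar⟩ := hb
  refine ⟨dctZflat p ρbar Smin, fun q hq => dctZflat_of_not_mem p ρbar Smin q hq, ?_, ?_, ?_⟩
  · intro S' v hv
    exact dct_card_flat_le p ρbar hp2 hdet hsplit Smin hpSmin S' v hv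
  · intro S' v hv hvp
    exact dct_card_flat_q_le p ρbar hp2 Smin S' v hv hvp
  · intro Q hQ DQ
    exact s56tan_injective_sel_flat p Smin Q DQ bbar (dctZflat p ρbar Smin)
      (fun ρ' z hcond hz hnf v => dct_hloc_flat p ρbar hp2 Smin Q hmin bbar ρ' z hcond hz hnf v.1)

end Main

end Fermat.Agent.S56
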