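/-
S56 / T24o (row 355), leaf ORD (row 443, helper26): `dct_nf_ord`.

A lift `ρ₂ = (1 + ε c) ρ̄` to `k[ε]` in normal form which is strict-ordinary at `p` with cyclotomic
determinant: `ρ̄|Γ_p` has the ordinary shape on the reduction `L̄` of the line of `ρ₂`, and `c|Γ_p`
differs by the coboundary of some `X ∈ ad⁰` from a function with values in `Hom(V/L̄, L̄)`.

Plan.  `dctRed`, `dctEps` : constant and `ε`-part of a vector of `ρ₂.V` (coordinates `b'`) as vectors
of `ρ̄.V` (coordinates `bbar`); an endomorphism in normal form acts by `red (T w) = T̄ (red w)`,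
`eps (T w) = T̄ (eps w) + Z (T̄ (red w))`.  In `k[ε]` the congruences mod `p` are equalities:
`x = a z`, `x z = det = a`, hence `z² = 1`, and `z`, `x` have no `ε`-part (`p ≠ 2`)
(`dct_ord_key`).  The characters are those of the Borel action of `Γ_p` on `ρ̄.V`
(`dct_exists_chars`), `ω := χ₁ / χ₂`; the linear algebra is `dct_core`.
-/
import Fermat.Agent.S56.Dict.Defs
import Fermat.Agent.S56.Tan.Lift

set_option autoImplicit false
set_option linter.unusedVariables false
set_option linter.unusedSectionVars false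

noncomputable section

namespace Fermat.Agent.S56

open Fermat.Agent.S55 ExtCitation IsLocalRing Polynomial


section RedEps

variable {k : Type} [Field k] {Vb : Type} [AddCommGroup Vb] [Module k Vb]
  {V2 : Type} [AddCommGroup V2] [Module (DualNumber k) V2]
  (bbar : Module.Basis (Fin 2) k Vb) (b' : Module.Basis (Fin 2) (DualNumber k) V2)

/-- constant part of a vector of `V₂` in the coordinates `b'`, as a vector of `V̄` -/
def dctRed (w : V2) : Vb := bbar.equivFun.symm fun i => TrivSqZeroExt.fst (b'.repr w i)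

/-- `ε`-part of a vector of `V₂` in the coordinates `b'`, as a vector of `V̄` -/
def dctEps (w : V2) : Vb := bbar.equivFun.symm fun i => TrivSqZeroExt.snd (b'.repr w i)

theorem dctRed_repr (w : V2) (i : Fin 2) :
    bbar.repr (dctRed bbar b' w) i = TrivSqZeroExt.fst (b'.repr w i) := by
  have h := bbar.equivFun.apply_symm_apply fun i => TrivSqZeroExt.fst (b'.repr w i)
  have h2 := congrFun h i
  rw [Module.Basis.equivFun_apply] at h2
  exact h2

theorem dctEps_repr (w : V2) (i : Fin 2) :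
    bbar.repr (dctEps bbar b' w) i = TrivSqZeroExt.snd (b'.repr w i) := by
  have h := bbar.equivFun.apply_symm_apply fun i => TrivSqZeroExt.snd (b'.repr w i)
  have h2 := congrFun h i
  rw [Module.Basis.equivFun_apply] at h2
  exact h2

theorem dct_vb_ext {v w : Vb} (h : ∀ i, bbar.repr v i = bbar.repr w i) : v = w :=
  bbar.repr.injective (Finsupp.ext h)

theorem dctRed_add (w w' : V2) :
    dctRed bbar b' (w + w') = dctRed bbar b' w + dctRed bbar b' w' := by
  apply dct_vb_ext bbar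
  intro i
  rw [map_add, Finsupp.add_apply, dctRed_repr, dctRed_repr, dctRed_repr, map_add, Finsupp.add_apply,
    TrivSqZeroExt.fst_add]

theorem dctEps_add (w w' : V2) :
    dctEps bbar b' (w + w') = dctEps bbar b' w + dctEps bbar b' w' := by
  apply dct_vb_ext bbar
  intro i
  rw [map_add, Finsupp.add_apply, dctEps_repr, dctEps_repr, dctEps_repr, map_add, Finsupp.add_apply,
    TrivSqZeroExt.snd_add]

theorem dctRed_smul (a : DualNumber k) (w : V2) :
    dctRed bbar b' (a • w) = TrivSqZeroExt.fst a • dctRed bbar b' w := by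
  apply dct_vb_ext bbar
  intro i
  rw [map_smul, Finsupp.smul_apply, dctRed_repr, dctRed_repr, map_smul, Finsupp.smul_apply,
    smul_eq_mul, smul_eq_mul, TrivSqZeroExt.fst_mul]

theorem dctEps_smul (a : DualNumber k) (w : V2) :
    dctEps bbar b' (a • w) =
      TrivSqZeroExt.fst a • dctEps bbar b' w + TrivSqZeroExt.snd a • dctRed bbar b' w := by
  apply dct_vb_ext bbar
  intro i
  rw [map_add, Finsupp.add_apply, map_smul, map_smul, Finsupp.smul_apply, Finsupp.smul_apply,
    dctEps_repr, dctEps_repr, dctRed_repr, map_smul, Finsupp.smul_apply,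
    smul_eq_mul, smul_eq_mul, smul_eq_mul, TrivSqZeroExt.snd_mul]
  simp only [smul_eq_mul, MulOpposite.smul_eq_mul_unop, MulOpposite.unop_op]

theorem dctRed_neg (w : V2) : dctRed bbar b' (-w) = -dctRed bbar b' w := by
  have h := dctRed_smul bbar b' (-1) w
  rw [neg_one_smul] at h
  rw [h]
  simp

theorem dctEps_neg (w : V2) : dctEps bbar b' (-w) = -dctEps bbar b' w := by
  have h := dctEps_smul bbar b' (-1) w
  rw [neg_one_smul] at h
  rw [h]
  simp

theorem dctRed_sub (w w' : V2) :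
    dctRed bbar b' (w - w') = dctRed bbar b' w - dctRed bbar b' w' := by
  rw [sub_eq_add_neg, dctRed_add, dctRed_neg, ← sub_eq_add_neg]

theorem dctEps_sub (w w' : V2) :
    dctEps bbar b' (w - w') = dctEps bbar b' w - dctEps bbar b' w' := by
  rw [sub_eq_add_neg, dctEps_add, dctEps_neg, ← sub_eq_add_neg]

/-- a vector with vanishing constant and `ε`-part vanishes -/
theorem dct_eq_zero_of_red_eps (w : V2) (h1 : dctRed bbar b' w = 0) (h2 : dctEps bbar b' w = 0) :
    w = 0 := by
  apply b'.repr.injective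
  rw [map_zero]
  ext i
  · have := dctRed_repr bbar b' w i
    rw [h1, map_zero] at this
    exact this.symm
  · have := dctEps_repr bbar b' w i
    rw [h2, map_zero] at this
    exact this.symm

/-- the constant lift of a vector of `V̄` -/
def dctLift (v : Vb) : V2 := b'.equivFun.symm fun i => TrivSqZeroExt.inl (bbar.repr v i)

theorem dctLift_repr (v : Vb) (i : Fin 2) :
    b'.repr (dctLift bbar b' v) i = TrivSqZeroExt.inl (bbar.repr v i) := by
  have h := b'.equivFun.apply_symm_apply fun i => (TrivSqZeroExt.inl (bbar.repr v i) : DualNumber k)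
  have h2 := congrFun h i
  rw [Module.Basis.equivFun_apply] at h2
  exact h2

theorem dctRed_lift (v : Vb) : dctRed bbar b' (dctLift bbar b' v) = v := by
  apply dct_vb_ext bbar
  intro i
  rw [dctRed_repr, dctLift_repr, TrivSqZeroExt.fst_inl]

theorem dctEps_lift (v : Vb) : dctEps bbar b' (dctLift bbar b' v) = 0 := by
  apply dct_vb_ext bbar
  intro i
  rw [dctEps_repr, dctLift_repr, TrivSqZeroExt.snd_inl, map_zero, Finsupp.zero_apply]

variable {bbar b'}

/-- the action of an endomorphism in normal form on the constant parts -/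
theorem dctRed_apply {T2 : Module.End (DualNumber k) V2} {Tb Z : Module.End k Vb}
    (hT : LinearMap.toMatrix b' b' T2 =
      s56tanMk (LinearMap.toMatrix bbar bbar Tb) (LinearMap.toMatrix bbar bbar (Z * Tb)))
    (w : V2) : dctRed bbar b' (T2 w) = Tb (dctRed bbar b' w) := by
  apply dct_vb_ext bbar
  intro i
  rw [dctRed_repr, ← LinearMap.toMatrix_mulVec_repr b' b' T2 w,
    ← LinearMap.toMatrix_mulVec_repr bbar bbar Tb, hT]
  simp only [Matrix.mulVec, dotProduct, Fin.sum_univ_two, s56tanMk, Matrix.of_apply, dctRed_repr,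
    TrivSqZeroExt.fst_add, TrivSqZeroExt.fst_mul, TrivSqZeroExt.fst_inl, TrivSqZeroExt.fst_inr,
    add_zero]

/-- the action of an endomorphism in normal form on the `ε`-parts -/
theorem dctEps_apply {T2 : Module.End (DualNumber k) V2} {Tb Z : Module.End k Vb}
    (hT : LinearMap.toMatrix b' b' T2 =
      s56tanMk (LinearMap.toMatrix bbar bbar Tb) (LinearMap.toMatrix bbar bbar (Z * Tb)))
    (w : V2) :
    dctEps bbar b' (T2 w) = Tb (dctEps bbar b' w) + Z (Tb (dctRed bbar b' w)) := by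
  apply dct_vb_ext bbar
  intro i
  have hZ : Z (Tb (dctRed bbar b' w)) = (Z * Tb) (dctRed bbar b' w) := rfl
  rw [dctEps_repr, ← LinearMap.toMatrix_mulVec_repr b' b' T2 w, map_add, Finsupp.add_apply, hZ,
    ← LinearMap.toMatrix_mulVec_repr bbar bbar Tb, ← LinearMap.toMatrix_mulVec_repr bbar bbar (Z * Tb),
    hT]
  simp only [Matrix.mulVec, dotProduct, Fin.sum_univ_two, s56tanMk, Matrix.of_apply, dctRed_repr,
    dctEps_repr, TrivSqZeroExt.snd_add, TrivSqZeroExt.snd_mul, TrivSqZeroExt.fst_add,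
    TrivSqZeroExt.fst_inl, TrivSqZeroExt.fst_inr, TrivSqZeroExt.snd_inl, TrivSqZeroExt.snd_inr,
    add_zero, zero_add, smul_eq_mul, MulOpposite.smul_eq_mul_unop, MulOpposite.unop_op]
  ring

end RedEps


section Generic

/-- the determinant of an endomorphism which is triangular in a basis -/
theorem dct_det_of_triangular {A : Type} [CommRing A] {V : Type} [AddCommGroup V] [Module A V]
    (b : Module.Basis (Fin 2) A V) (T : Module.End A V) (x z : A)
    (hx : T (b 0) = x • b 0) (hz : T (b 1) - z • b 1 ∈ Submodule.span A {b 0}) :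
    LinearMap.det T = x * z := by
  obtain ⟨r, hr⟩ := Submodule.mem_span_singleton.1 hz
  have h1 : T (b 1) = z • b 1 + r • b 0 := by rw [hr]; abel
  rw [← LinearMap.det_toMatrix b, Matrix.det_fin_two]
  have h00 : LinearMap.toMatrix b b T 0 0 = x := by
    rw [LinearMap.toMatrix_apply, hx, map_smul, Finsupp.smul_apply, b.repr_self,
      Finsupp.single_eq_same, smul_eq_mul, mul_one]
  have h10 : LinearMap.toMatrix b b T 1 0 = 0 := by
    rw [LinearMap.toMatrix_apply, hx, map_smul, Finsupp.smul_apply, b.repr_self,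
      Finsupp.single_eq_of_ne (by decide), smul_zero]
  have h11 : LinearMap.toMatrix b b T 1 1 = z := by
    rw [LinearMap.toMatrix_apply, h1, map_add, map_smul, map_smul, Finsupp.add_apply,
      Finsupp.smul_apply, Finsupp.smul_apply, b.repr_self, b.repr_self, Finsupp.single_eq_same,
      Finsupp.single_eq_of_ne (by decide), smul_zero, add_zero, smul_eq_mul, mul_one]
  rw [h00, h10, h11, mul_zero, sub_zero]

/-- a square root of `1` in the dual numbers is constant (`2 ≠ 0`) -/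
theorem dct_snd_eq_zero_of_mul_self {k : Type} [Field k] (h2 : (2 : k) ≠ 0) (z : DualNumber k)
    (hz : z * z = 1) : TrivSqZeroExt.snd z = 0 := by
  have h1 := congrArg TrivSqZeroExt.fst hz
  have h3 := congrArg TrivSqZeroExt.snd hz
  rw [TrivSqZeroExt.fst_mul, TrivSqZeroExt.fst_one] at h1
  rw [TrivSqZeroExt.snd_mul, TrivSqZeroExt.snd_one] at h3
  simp only [smul_eq_mul, MulOpposite.smul_eq_mul_unop, MulOpposite.unop_op] at h3
  have h0 : TrivSqZeroExt.fst z ≠ 0 := by
    intro h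
    rw [h, mul_zero] at h1
    exact zero_ne_one h1
  have h4 : (2 * TrivSqZeroExt.fst z) * TrivSqZeroExt.snd z = 0 := by
    rw [← h3]; ring
  exact (mul_eq_zero.1 h4).resolve_left (mul_ne_zero h2 h0)

variable {k : Type} [Field k] {V : Type} [AddCommGroup V] [Module k V]

theorem dct_scalar_unique_quot (v w : V) (hw : w ∉ Submodule.span k {v}) (T : Module.End k V)
    (z z' : k) (h : ∀ y, T y - z • y ∈ Submodule.span k {v})
    (h' : ∀ y, T y - z' • y ∈ Submodule.span k {v}) : z = z' := by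
  by_contra hne
  have h1 : (z' - z) • w ∈ Submodule.span k {v} := by
    have := Submodule.sub_mem _ (h w) (h' w)
    have h2 : T w - z • w - (T w - z' • w) = (z' - z) • w := by
      rw [sub_smul]; abel
    rw [h2] at this
    exact this
  have h3 : z' - z ≠ 0 := sub_ne_zero.2 (Ne.symm hne)
  apply hw
  have := Submodule.smul_mem _ (z' - z)⁻¹ h1
  rw [smul_smul, inv_mul_cancel₀ h3, one_smul] at this
  exact this

/-- the two diagonal characters of a group acting through a Borel subgroup -/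
theorem dct_exists_chars {G : Type} [Group G] (ρ : G →* Module.End k V) (v w : V) (hv : v ≠ 0)
    (hw : w ∉ Submodule.span k {v})
    (h : ∀ g, ∃ x z : k, ρ g v = x • v ∧ ∀ y, ρ g y - z • y ∈ Submodule.span k {v}) :
    ∃ χ₁ χ₂ : G →* kˣ, (∀ g, ρ g v = ((χ₁ g : kˣ) : k) • v) ∧
      (∀ g y, ρ g y - ((χ₂ g : kˣ) : k) • y ∈ Submodule.span k {v}) := by
  choose X Z hX hZ using h
  have hstab : ∀ g, ∀ y ∈ Submodule.span k {v}, ρ g y ∈ Submodule.span k {v} := by
    intro g y hy
    obtain ⟨s, rfl⟩ := Submodule.mem_span_singleton.1 hy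
    rw [map_smul, hX]
    exact Submodule.smul_mem _ _ (Submodule.smul_mem _ _ (Submodule.mem_span_singleton_self v))
  have hX1 : X 1 = 1 := by
    have h1 := hX 1
    rw [map_one, Module.End.one_apply] at h1
    have h2 : (1 : k) • v = X 1 • v := by rw [one_smul]; exact h1
    exact (smul_left_injective k hv h2).symm
  have hXm : ∀ g h, X (g * h) = X g * X h := by
    intro g h
    have h1 := hX (g * h)
    rw [map_mul, Module.End.mul_apply, hX h, map_smul, hX g, smul_smul] at h1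
    have := smul_left_injective k hv h1
    rw [← this, mul_comm]
  have hZ1 : Z 1 = 1 := by
    refine dct_scalar_unique_quot v w hw (ρ 1) _ _ (hZ 1) ?_
    intro y
    rw [map_one, Module.End.one_apply, one_smul, sub_self]
    exact Submodule.zero_mem _
  have hZm : ∀ g h, Z (g * h) = Z g * Z h := by
    intro g h
    refine dct_scalar_unique_quot v w hw (ρ (g * h)) _ _ (hZ (g * h)) ?_
    intro y
    have h1 : ρ (g * h) y - (Z g * Z h) • y =
        ρ g (ρ h y - Z h • y) + Z h • (ρ g y - Z g • y) := by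
      rw [map_mul, Module.End.mul_apply, map_sub, map_smul, smul_sub, smul_smul, mul_comm (Z h)]
      abel
    rw [h1]
    exact Submodule.add_mem _ (hstab g _ (hZ h y)) (Submodule.smul_mem _ _ (hZ g y))
  let χ₁' : G →* k := { toFun := X, map_one' := hX1, map_mul' := hXm }
  let χ₂' : G →* k := { toFun := Z, map_one' := hZ1, map_mul' := hZm }
  refine ⟨χ₁'.toHomUnits, χ₂'.toHomUnits, fun g => ?_, fun g y => ?_⟩
  · rw [MonoidHom.coe_toHomUnits]
    exact hX g
  · rw [MonoidHom.coe_toHomUnits]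
    exact hZ g y

/-- the CORE computation: the cocycle of an ordinary lift, corrected by the coboundary of `X`,
has values in `Hom(V/L, L)` -/
theorem dct_core (M Minv C X : Module.End k V) (v u : V) (x₀ z₀ : k) (hx₀ : x₀ ≠ 0)
    (hM1 : M * Minv = 1) (hM2 : Minv * M = 1)
    (h1 : M v = x₀ • v) (h2 : M u + C (M v) = x₀ • u)
    (h3 : ∀ w, ∃ s₀ s₁ : k, M w - z₀ • w = s₀ • v ∧ C (M w) = s₀ • u + s₁ • v)
    (h4 : X v = -u) :
    (C - (M * X * Minv - X)) v = 0 ∧
      ∀ y, (C - (M * X * Minv - X)) y ∈ Submodule.span k {v} := by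
  have hMinv : Minv v = x₀⁻¹ • v := by
    have h5 : Minv (M v) = v := by
      rw [← Module.End.mul_apply, hM2, Module.End.one_apply]
    rw [h1, map_smul] at h5
    conv_rhs => rw [← h5]
    rw [smul_smul, inv_mul_cancel₀ hx₀, one_smul]
  constructor
  · have hCv : C v = u - x₀⁻¹ • M u := by
      rw [h1, map_smul] at h2
      have h5 : x₀ • C v = x₀ • u - M u := by rw [← h2]; abel
      have h6 : C v = x₀⁻¹ • (x₀ • C v) := by rw [smul_smul, inv_mul_cancel₀ hx₀, one_smul]
      rw [h6, h5, smul_sub, smul_smul, inv_mul_cancel₀ hx₀, one_smul]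
    rw [LinearMap.sub_apply, LinearMap.sub_apply, Module.End.mul_apply, Module.End.mul_apply, hMinv,
      map_smul, map_smul, h4, hCv, map_neg, smul_neg]
    abel
  · intro y
    obtain ⟨s₀, s₁, hs, hs'⟩ := h3 (Minv y)
    obtain ⟨t₀, t₁, ht, -⟩ := h3 (X (Minv y))
    have hy : M (Minv y) = y := by
      rw [← Module.End.mul_apply, hM1, Module.End.one_apply]
    rw [hy] at hs hs'
    have hy2 : y = z₀ • Minv y + s₀ • v := by rw [← hs]; abel
    have hXy : X y = z₀ • X (Minv y) - s₀ • u := by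
      conv_lhs => rw [hy2]
      rw [map_add, map_smul, map_smul, h4, smul_neg, sub_eq_add_neg]
    have : (C - (M * X * Minv - X)) y = (s₁ - t₀) • v := by
      rw [LinearMap.sub_apply, LinearMap.sub_apply, Module.End.mul_apply, Module.End.mul_apply, hs',
        hXy, sub_smul, ← ht]
      abel
    rw [this]
    exact Submodule.smul_mem _ _ (Submodule.mem_span_singleton_self v)

end Generic


section Generic2
variable {k : Type} [Field k] {V : Type} [AddCommGroup V] [Module k V]

/-- a trace-zero endomorphism with a prescribed value at a non-zero vector (`dim V = 2`) -/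
theorem dct_exists_trace_zero (hfr : Module.finrank k V = 2) (v u : V) (hv : v ≠ 0) :
    ∃ X : Module.End k V, X v = -u ∧ LinearMap.trace k V X = 0 := by
  have : FiniteDimensional k V := Module.finite_of_finrank_pos (by rw [hfr]; norm_num)
  obtain ⟨φ₀, hφ₀⟩ : ∃ φ : Module.Dual k V, φ v ≠ 0 := by
    by_contra h
    have h' : ∀ φ : Module.Dual k V, φ v = 0 := fun φ => by_contra fun hne => h ⟨φ, hne⟩
    exact hv ((Module.forall_dual_apply_eq_zero_iff k v).1 h')
  let φ : V →ₗ[k] k := (φ₀ v)⁻¹ • φ₀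
  have hφ : φ v = 1 := by
    show (φ₀ v)⁻¹ • φ₀ v = 1
    rw [smul_eq_mul, inv_mul_cancel₀ hφ₀]
  refine ⟨φ u • (1 - φ.smulRight v) - φ.smulRight u, ?_, ?_⟩
  · rw [LinearMap.sub_apply, LinearMap.smul_apply, LinearMap.sub_apply, Module.End.one_apply,
      LinearMap.smulRight_apply, LinearMap.smulRight_apply, hφ, one_smul, sub_self, smul_zero,
      one_smul, zero_sub]
  · rw [map_sub, map_smul, map_sub, LinearMap.trace_one, LinearMap.trace_smulRight,
      LinearMap.trace_smulRight, hφ, hfr, smul_eq_mul]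
    push_cast
    ring

end Generic2



section Key

variable {k : Type} [Field k] (p : ℕ) [Fact p.Prime] [CharP k p]
  (ρbar : ResidualGaloisRep k) (bbar : Module.Basis (Fin 2) k ρbar.V)
  (ρ₂ : GaloisRepAdic (DualNumber k)) (c : GQ → S56Ad0 ρbar)

theorem dct_two_ne_zero (hp2 : p ≠ 2) : (2 : k) ≠ 0 := by
  intro h
  have h1 : ((2 : ℕ) : k) = 0 := by exact_mod_cast h
  rw [CharP.cast_eq_zero_iff k p] at h1
  exact hp2 ((Nat.prime_dvd_prime_iff_eq (Fact.out : p.Prime) Nat.prime_two).1 h1)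

theorem dct_natCast_pow_one_eq_zero : (((p ^ 1 : ℕ) : ℕ) : DualNumber k) = 0 := by
  rw [pow_one, ← map_natCast (algebraMap k (DualNumber k)), CharP.cast_eq_zero, map_zero]

/-- the per-element content of the strict-ordinary condition, in terms of constant and `ε`-parts -/
theorem dct_ord_key (hp2 : p ≠ 2) (b' : Module.Basis (Fin 2) (DualNumber k) ρ₂.V)
    (hdet₂ : ρ₂.DetIsCyclotomic p)
    (b₂ : Module.Basis (Fin 2) (DualNumber k) ρ₂.V) (g : GQ)
    (hb' : LinearMap.toMatrix b' b' (ρ₂.ρ g) =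
      s56tanMk (LinearMap.toMatrix bbar bbar (ρbar.ρ g))
        (LinearMap.toMatrix bbar bbar ((c g).val * ρbar.ρ g)))
    (x z : DualNumber k)
    (hx : ρ₂.ρ g (b₂ 0) = x • b₂ 0)
    (hz : ∀ w : ρ₂.V, ρ₂.ρ g w - z • w ∈ Submodule.span (DualNumber k) {b₂ 0})
    (hcyc : ∀ (n a : ℕ), (∀ μ : AlgebraicClosure ℚ, μ ^ p ^ n = 1 → g μ = μ ^ a) →
      x - (a : DualNumber k) * z ∈ Ideal.span {((p ^ n : ℕ) : DualNumber k)}) :
    TrivSqZeroExt.fst x ≠ 0 ∧
    ρbar.ρ g (dctRed bbar b' (b₂ 0)) = TrivSqZeroExt.fst x • dctRed bbar b' (b₂ 0) ∧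
    (ρbar.ρ g (dctEps bbar b' (b₂ 0)) + (c g).val (ρbar.ρ g (dctRed bbar b' (b₂ 0))) =
      TrivSqZeroExt.fst x • dctEps bbar b' (b₂ 0)) ∧
    (∀ w : ρbar.V, ∃ s₀ s₁ : k,
      ρbar.ρ g w - TrivSqZeroExt.fst z • w = s₀ • dctRed bbar b' (b₂ 0) ∧
      (c g).val (ρbar.ρ g w) = s₀ • dctEps bbar b' (b₂ 0) + s₁ • dctRed bbar b' (b₂ 0)) ∧
    (∀ a : ℕ, (∀ μ : AlgebraicClosure ℚ, μ ^ p ^ 1 = 1 → g μ = μ ^ a) →
      TrivSqZeroExt.fst x = (a : k) * TrivSqZeroExt.fst z) := by
  obtain ⟨a₁, ha₁⟩ := s56tan_exists_cyclo_exp p 1 g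
  have hp0 := dct_natCast_pow_one_eq_zero (k := k) p
  have hxa : ∀ a : ℕ, (∀ μ : AlgebraicClosure ℚ, μ ^ p ^ 1 = 1 → g μ = μ ^ a) →
      x = (a : DualNumber k) * z := by
    intro a ha
    have h1 := hcyc 1 a ha
    rw [hp0, Ideal.span_singleton_zero, Ideal.mem_bot, sub_eq_zero] at h1
    exact h1
  have hdet : LinearMap.det (ρ₂.ρ g) = (a₁ : DualNumber k) := by
    have h1 := hdet₂.2 1 g a₁ ha₁
    rw [hp0, Ideal.span_singleton_zero, Ideal.mem_bot, sub_eq_zero] at h1
    exact h1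
  have hdet' : LinearMap.det (ρ₂.ρ g) = x * z := dct_det_of_triangular b₂ _ x z hx (hz (b₂ 1))
  have hunit : IsUnit (LinearMap.det (ρ₂.ρ g)) := by
    refine IsUnit.of_mul_eq_one (LinearMap.det (ρ₂.ρ g⁻¹)) ?_
    rw [← map_mul, ← map_mul, mul_inv_cancel, map_one, map_one]
  have hzz : z * z = 1 := by
    have h1 : (a₁ : DualNumber k) * (z * z) = (a₁ : DualNumber k) * 1 := by
      rw [mul_one, ← mul_assoc, ← hxa a₁ ha₁, ← hdet', hdet]
    rw [hdet] at hunit
    exact hunit.mul_left_cancel h1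
  have hz1 : TrivSqZeroExt.snd z = 0 := dct_snd_eq_zero_of_mul_self (dct_two_ne_zero p hp2) z hzz
  have hx1 : TrivSqZeroExt.snd x = 0 := by
    rw [hxa a₁ ha₁, TrivSqZeroExt.snd_mul, hz1, TrivSqZeroExt.snd_natCast, smul_zero, smul_zero,
      add_zero]
  have hx0 : TrivSqZeroExt.fst x ≠ 0 := by
    have h1 : IsUnit x := by
      rw [hdet'] at hunit
      exact isUnit_of_mul_isUnit_left hunit
    have h2 : IsUnit (TrivSqZeroExt.fst x) := by
      obtain ⟨y, hy⟩ := h1.exists_right_inv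
      have := congrArg TrivSqZeroExt.fst hy
      rw [TrivSqZeroExt.fst_mul, TrivSqZeroExt.fst_one] at this
      exact IsUnit.of_mul_eq_one _ this
    exact h2.ne_zero
  refine ⟨hx0, ?_, ?_, ?_, ?_⟩
  · rw [← dctRed_apply hb', hx, dctRed_smul]
  · rw [← dctEps_apply hb', hx, dctEps_smul, hx1, zero_smul, add_zero]
  · intro w
    obtain ⟨s, hs⟩ := Submodule.mem_span_singleton.1 (hz (dctLift bbar b' w))
    refine ⟨TrivSqZeroExt.fst s, TrivSqZeroExt.snd s, ?_, ?_⟩
    · have h1 := congrArg (dctRed bbar b') hs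
      rw [dctRed_smul, dctRed_sub, dctRed_apply hb', dctRed_smul, dctRed_lift] at h1
      exact h1.symm
    · have h1 := congrArg (dctEps bbar b') hs
      rw [dctEps_smul, dctEps_sub, dctEps_apply hb', dctEps_smul, dctRed_lift, dctEps_lift, hz1,
        map_zero (ρbar.ρ g), zero_add, smul_zero, zero_smul, add_zero, sub_zero] at h1
      exact h1.symm
  · intro a ha
    have h1 := congrArg TrivSqZeroExt.fst (hxa a ha)
    rw [TrivSqZeroExt.fst_mul, TrivSqZeroExt.fst_natCast] at h1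
    exact h1

end Key

section Main

variable {k : Type} [Field k] [Finite k] (p : ℕ) [Fact p.Prime] [CharP k p]
  (ρbar : ResidualGaloisRep k) (bbar : Module.Basis (Fin 2) k ρbar.V)
  (ρ₂ : GaloisRepAdic (DualNumber k)) (c : GQ → S56Ad0 ρbar)

/-- local roots of unity control the global ones -/
theorem dct_cyclo_of_local (σ : lbGal p) (a : ℕ)
    (h : ∀ ζ : PadicAlgCl p, ζ ^ p = 1 → σ ζ = ζ ^ a) :
    ∀ μ : AlgebraicClosure ℚ, μ ^ p ^ 1 = 1 → localGaloisToGlobal p σ μ = μ ^ a := by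
  intro μ hμ
  apply (padicEmbedding p).toRingHom.injective
  show padicEmbedding p (localGaloisToGlobal p σ μ) = padicEmbedding p (μ ^ a)
  rw [padicEmbedding_localGaloisToGlobal, map_pow]
  apply h
  rw [pow_one] at hμ
  rw [← map_pow, hμ, map_one]

/-- **ORD.** `ρ₂ = (1 + ε c) ρ̄` strict-ordinary at `p` with cyclotomic determinant ⟹ `ρ̄|Γ_p` has
the ordinary shape on the reduction `L` of the line of `ρ₂`, and `c|Γ_p` differs by a coboundary
`g ↦ g X - X`, `X ∈ ad⁰`, from a function with values in `Hom(V/L, L)`. -/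
theorem dct_nf_ord (hp2 : p ≠ 2) (hnf : S56IsTanLift ρbar bbar ρ₂ (fun g => (c g).val))
    (hdet₂ : ρ₂.DetIsCyclotomic p) (hord : ρ₂.IsStrictOrdinaryAt p) :
    ∃ L : Submodule k ρbar.V, DctOrdShape p ρbar p L ∧ ∃ X : S56Ad0 ρbar,
      (fun σ : lbGal p => c (localGaloisToGlobal p σ) -
        (s56Ad0 p ρbar (localGaloisToGlobal p σ) X - X)) ∈ dctOrdFun p ρbar p L := by
  obtain ⟨b', hb'⟩ := hnf
  obtain ⟨L₂, ⟨b₂, hL₂⟩, hD, hI, hxz⟩ := hord.2 (padicPlace p) (padicPlace_liesOverPrime p)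
  -- the reduced line
  have hv : dctRed bbar b' (b₂ 0) ≠ 0 := by
    intro h0
    have h1 : ((TrivSqZeroExt.inr 1 : DualNumber k)) • b₂ 0 = 0 := by
      apply dct_eq_zero_of_red_eps bbar b'
      · rw [dctRed_smul, h0, smul_zero]
      · rw [dctEps_smul, h0, smul_zero, TrivSqZeroExt.fst_inr, zero_smul, add_zero]
    have h2 := congrArg (fun t => b₂.repr t 0) h1
    simp only [map_smul, Finsupp.smul_apply, b₂.repr_self, Finsupp.single_eq_same, smul_eq_mul,
      mul_one, map_zero, Finsupp.zero_apply] at h2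
    have h3 := congrArg TrivSqZeroExt.snd h2
    rw [TrivSqZeroExt.snd_inr, TrivSqZeroExt.snd_zero] at h3
    exact one_ne_zero h3
  -- the data of each local element
  have key : ∀ σ : lbGal p, ∃ x₀ z₀ : k, x₀ ≠ 0 ∧
      ρbar.ρ (localGaloisToGlobal p σ) (dctRed bbar b' (b₂ 0)) = x₀ • dctRed bbar b' (b₂ 0) ∧
      (ρbar.ρ (localGaloisToGlobal p σ) (dctEps bbar b' (b₂ 0)) +
        (c (localGaloisToGlobal p σ)).val
          (ρbar.ρ (localGaloisToGlobal p σ) (dctRed bbar b' (b₂ 0))) =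
        x₀ • dctEps bbar b' (b₂ 0)) ∧
      (∀ w : ρbar.V, ∃ s₀ s₁ : k,
        ρbar.ρ (localGaloisToGlobal p σ) w - z₀ • w = s₀ • dctRed bbar b' (b₂ 0) ∧
        (c (localGaloisToGlobal p σ)).val (ρbar.ρ (localGaloisToGlobal p σ) w) =
          s₀ • dctEps bbar b' (b₂ 0) + s₁ • dctRed bbar b' (b₂ 0)) ∧
      (∀ a : ℕ, (∀ ζ : PadicAlgCl p, ζ ^ p = 1 → σ ζ = ζ ^ a) → x₀ = (a : k) * z₀) ∧
      (σ ∈ locInertia p → z₀ = 1) := by
    intro σ
    have hg := localGaloisToGlobal_mem_decompositionSubgroup p σ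
    obtain ⟨x, z, hx, hz, hcyc⟩ := hxz _ hg
    have hx' : ρ₂.ρ (localGaloisToGlobal p σ) (b₂ 0) = x • b₂ 0 :=
      hx _ (by rw [hL₂]; exact Submodule.mem_span_singleton_self _)
    have hz' : ∀ w : ρ₂.V, ρ₂.ρ (localGaloisToGlobal p σ) w - z • w ∈
        Submodule.span (DualNumber k) {b₂ 0} := by
      intro w
      rw [← hL₂]
      exact hz w
    obtain ⟨h1, h2, h3, h4, h5⟩ := dct_ord_key p ρbar bbar ρ₂ c hp2 b' hdet₂ b₂
      (localGaloisToGlobal p σ) (hb' _) x z hx' hz' hcyc
    refine ⟨TrivSqZeroExt.fst x, TrivSqZeroExt.fst z, h1, h2, h3, h4, ?_, ?_⟩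
    · intro a ha
      exact h5 a (dct_cyclo_of_local p σ a ha)
    · intro hσ
      have hin : localGaloisToGlobal p σ ∈ (padicPlace p).inertiaSubgroupIn ℚ :=
        (localGaloisToGlobal_mem_inertiaSubgroupIn_iff p σ).2 ((mem_locInertia p σ).1 hσ)
      have h6 := hI _ hin (b₂ 1)
      rw [hL₂] at h6
      obtain ⟨r, hr⟩ := Submodule.mem_span_singleton.1 (Submodule.sub_mem _ h6 (hz' (b₂ 1)))
      have h7 : r • b₂ 0 = (z - 1) • b₂ 1 := by
        rw [hr, sub_smul, one_smul]; abel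
      have h8 := congrArg (fun t => b₂.repr t 1) h7
      simp only [map_smul, Finsupp.smul_apply, b₂.repr_self, Finsupp.single_eq_same, smul_eq_mul,
        mul_one] at h8
      rw [Finsupp.single_eq_of_ne (by decide), mul_zero] at h8
      have h9 : z = 1 := (sub_eq_zero.1 h8.symm)
      rw [h9, TrivSqZeroExt.fst_one]
  set v := dctRed bbar b' (b₂ 0) with hvdef
  set u := dctEps bbar b' (b₂ 0) with hudef
  have hfr : Module.finrank k ↥(Submodule.span k {v}) = 1 := finrank_span_singleton hv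
  -- a vector outside the line
  obtain ⟨w, hw⟩ : ∃ w : ρbar.V, w ∉ Submodule.span k {v} := by
    by_contra h
    have h' : ∀ w : ρbar.V, w ∈ Submodule.span k {v} := fun w => by_contra fun hne => h ⟨w, hne⟩
    have h1 : Submodule.span k {v} = ⊤ := Submodule.eq_top_iff'.2 h'
    rw [h1, finrank_top, ρbar.finrank_eq] at hfr
    exact absurd hfr (by norm_num)
  -- the characters
  obtain ⟨χ₁, χ₂, hχ₁, hχ₂⟩ := dct_exists_chars (ρbar.ρ.comp (localGaloisToGlobal p)) v w hv hw
    (fun σ => by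
      obtain ⟨x₀, z₀, -, h2, -, h4, -, -⟩ := key σ
      refine ⟨x₀, z₀, h2, fun y => ?_⟩
      obtain ⟨s₀, s₁, hs, -⟩ := h4 y
      rw [MonoidHom.comp_apply, hs]
      exact Submodule.smul_mem _ _ (Submodule.mem_span_singleton_self v))
  have hχ₁eq : ∀ σ x₀, ρbar.ρ (localGaloisToGlobal p σ) v = x₀ • v → ((χ₁ σ : kˣ) : k) = x₀ := by
    intro σ x₀ h
    have h1 := hχ₁ σ
    rw [MonoidHom.comp_apply, h] at h1
    exact (smul_left_injective k hv h1).symm
  have hχ₂eq : ∀ σ z₀, (∀ y : ρbar.V, ∃ s₀ : k,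
      ρbar.ρ (localGaloisToGlobal p σ) y - z₀ • y = s₀ • v) → ((χ₂ σ : kˣ) : k) = z₀ := by
    intro σ z₀ h
    refine dct_scalar_unique_quot v w hw (ρbar.ρ (localGaloisToGlobal p σ)) _ _ (hχ₂ σ) ?_
    intro y
    obtain ⟨s₀, hs⟩ := h y
    rw [hs]
    exact Submodule.smul_mem _ _ (Submodule.mem_span_singleton_self v)
  refine ⟨Submodule.span k {v}, ⟨hfr, χ₁ / χ₂, χ₂, ?_, ?_, ?_, ?_⟩, ?_⟩
  · intro σ a ha
    obtain ⟨x₀, z₀, -, h2, -, h4, h5, -⟩ := key σ
    have e1 := hχ₁eq σ x₀ h2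
    have e2 := hχ₂eq σ z₀ (fun y => by
      obtain ⟨s₀, s₁, hs, -⟩ := h4 y
      exact ⟨s₀, hs⟩)
    rw [MonoidHom.div_apply, Units.val_div_eq_div_val, e1, e2, h5 a ha]
    have hz0 : z₀ ≠ 0 := by
      rw [← e2]
      exact (χ₂ σ).ne_zero
    rw [mul_div_assoc, div_self hz0, mul_one]
  · intro σ y hy
    obtain ⟨s, rfl⟩ := Submodule.mem_span_singleton.1 hy
    have h1 := hχ₁ σ
    rw [MonoidHom.comp_apply] at h1
    rw [MonoidHom.div_apply, div_mul_cancel]
    show ρbar.ρ (localGaloisToGlobal p σ) (s • v) = _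
    rw [map_smul, h1, smul_comm]
  · intro σ y
    exact hχ₂ σ y
  · intro σ hσ
    obtain ⟨x₀, z₀, -, -, -, h4, -, h6⟩ := key σ
    have e2 := hχ₂eq σ z₀ (fun y => by
      obtain ⟨s₀, s₁, hs, -⟩ := h4 y
      exact ⟨s₀, hs⟩)
    rw [h6 hσ] at e2
    exact Units.ext e2
  · obtain ⟨X₀, hX₀v, hX₀tr⟩ := dct_exists_trace_zero ρbar.finrank_eq v u hv
    refine ⟨S56Ad0.mk X₀ hX₀tr, ?_⟩
    rw [mem_dctOrdFun]
    intro σ
    obtain ⟨x₀, z₀, h1, h2, h3, h4, -, -⟩ := key σ
    have hval : (c (localGaloisToGlobal p σ) -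
        (s56Ad0 p ρbar (localGaloisToGlobal p σ) (S56Ad0.mk X₀ hX₀tr) - S56Ad0.mk X₀ hX₀tr)).val =
        (c (localGaloisToGlobal p σ)).val -
          (ρbar.ρ (localGaloisToGlobal p σ) * X₀ * ρbar.ρ (localGaloisToGlobal p σ)⁻¹ - X₀) := rfl
    obtain ⟨hc1, hc2⟩ := dct_core (ρbar.ρ (localGaloisToGlobal p σ))
      (ρbar.ρ (localGaloisToGlobal p σ)⁻¹) (c (localGaloisToGlobal p σ)).val X₀ v u x₀ z₀ h1
      (s56_rho_mul_inv ρbar _) (s56_rho_inv_mul ρbar _) h2 h3 h4 hX₀v
    rw [hval]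
    refine ⟨?_, fun y hy => ?_⟩
    · rintro _ ⟨y, rfl⟩
      exact hc2 y
    · obtain ⟨s, rfl⟩ := Submodule.mem_span_singleton.1 hy
      rw [LinearMap.mem_ker, map_smul, hc1, smul_zero]

end Main

end Fermat.Agent.S56
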